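import Mathlib
import Fermat.Prelude.Def_ModularForm_HeckeOperator
import Fermat.Prelude.Thm_CongruenceSubgroup_one_mem_strictPeriods_Gamma0

/-!
# A separating modular form on `Γ₀(N)` with integral `q`-expansion (P-INT subtask INT-5)

`dilate N g` is the modular form `z ↦ g (N z)` on `Γ₀(N)` attached to a level-one form `g`.
Main results (all in namespace `Fermat.Agent.H62`):

* `levelRaise N g : ModularForm (Gamma0 N) k`, with function `g ∣[k] diag(N,1)`;
* `dilate N g : ModularForm (Gamma0 N) k`, with `dilate N g z = g (diag(N,1) • z)`;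
* `qExpansion_dilate_coeff` : the `n`-th `q`-coefficient of `dilate N g` is the `(n/N)`-th
  coefficient of `g` if `N ∣ n` and `0` otherwise;
* `tendsto_atImInfty_coeff_zero` : a level-one form tends to its constant coefficient at `i∞`;
* `E₄_qExpansion_coeff_int` : the `q`-expansion of `E₄` is integral;
* `exists_decomp` : Hermite decomposition `diag(N,1) * γ = δ * β`;
* `mem_Gamma0_of_slash_eq` : the stabiliser of `E₄(N z)` in `SL(2,ℤ)` is `Γ₀(N)`;
* `exists_separating_form` : the statement of INT-5 (implies P-DIM's DIM-7).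
-/

open UpperHalfPlane ModularForm CongruenceSubgroup Filter
open scoped MatrixGroups ModularForm Pointwise Topology

namespace Fermat.Agent.H62

local notation "𝕢" => Function.Periodic.qParam

open Matrix.SpecialLinearGroup in
theorem mapGL_apply (γ : SL(2, ℤ)) (i j : Fin 2) :
    (mapGL ℝ γ : Matrix (Fin 2) (Fin 2) ℝ) i j = ((γ i j : ℤ) : ℝ) := by
  rw [mapGL_coe_matrix]
  rfl

open Matrix.SpecialLinearGroup in
/-- For `γ ∈ Γ₀(N)`, the conjugate `α γ α⁻¹` (α = diag(N,1)) is the image of an integral matrix. -/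
theorem gamma0_le_conj (N : ℕ) [NeZero N] :
    ((Gamma0 N : Subgroup SL(2, ℤ)) : Subgroup (GL (Fin 2) ℝ)) ≤
      ConjAct.toConjAct (heckeDiagMatrix N)⁻¹ • 𝒮ℒ := by
  rintro _ ⟨γ, hγ, rfl⟩
  rw [Subgroup.mem_pointwise_smul_iff_inv_smul_mem, ← ConjAct.toConjAct_inv, inv_inv,
    ConjAct.toConjAct_smul]
  rw [SetLike.mem_coe, Gamma0_mem] at hγ
  obtain ⟨c', hc'⟩ : (N : ℤ) ∣ γ 1 0 := by
    exact (ZMod.intCast_zmod_eq_zero_iff_dvd _ _).mp hγ
  have hdet : γ 0 0 * γ 1 1 - γ 0 1 * γ 1 0 = 1 := by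
    have := γ.det_coe
    rwa [Matrix.det_fin_two] at this
  let δ : SL(2, ℤ) := ⟨!![γ 0 0, N * γ 0 1; c', γ 1 1], by
    rw [Matrix.det_fin_two_of]
    rw [hc'] at hdet
    linear_combination hdet⟩
  refine ⟨δ, ?_⟩
  rw [eq_mul_inv_iff_mul_eq]
  have hN : N ≠ 0 := NeZero.ne N
  apply Matrix.GeneralLinearGroup.ext
  intro i j
  rw [Matrix.GeneralLinearGroup.coe_mul, Matrix.GeneralLinearGroup.coe_mul,
    val_heckeDiagMatrix hN, Matrix.mul_apply, Matrix.mul_apply, Fin.sum_univ_two, Fin.sum_univ_two]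
  simp only [Fermat.Agent.H62.mapGL_apply]
  fin_cases i <;> fin_cases j <;>
    simp [δ, hc'] <;> ring

/-- Level raising: `g ∣[k] diag(N,1)` as a modular form on `Γ₀(N)`. -/
noncomputable def levelRaise (N : ℕ) [NeZero N] {k : ℤ} (g : ModularForm 𝒮ℒ k) :
    ModularForm (Gamma0 N) k where
  toFun := ⇑g ∣[k] heckeDiagMatrix N
  slash_action_eq' γ hγ :=
    (ModularForm.translate g (heckeDiagMatrix N)).slash_action_eq' γ (gamma0_le_conj N hγ)
  holo' := (ModularForm.translate g (heckeDiagMatrix N)).holo'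
  bdd_at_cusps' hc :=
    (ModularForm.translate g (heckeDiagMatrix N)).bdd_at_cusps' (hc.mono (gamma0_le_conj N))

theorem coe_levelRaise (N : ℕ) [NeZero N] {k : ℤ} (g : ModularForm 𝒮ℒ k) :
    (⇑(levelRaise N g) : ℍ → ℂ) = ⇑g ∣[k] heckeDiagMatrix N := rfl

theorem levelRaise_apply (N : ℕ) [NeZero N] {k : ℤ} (g : ModularForm 𝒮ℒ k) (z : ℍ) :
    levelRaise N g z = (N : ℂ) ^ (k - 1) * g (heckeDiagMatrix N • z) :=
  slash_heckeDiagMatrix_apply k (NeZero.ne N) g z

/-- The form `z ↦ g (N z)` on `Γ₀(N)`. -/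
noncomputable def dilate (N : ℕ) [NeZero N] {k : ℤ} (g : ModularForm 𝒮ℒ k) :
    ModularForm (Gamma0 N) k :=
  (((N : ℝ) ^ (k - 1))⁻¹ : ℝ) • levelRaise N g

theorem coe_dilate (N : ℕ) [NeZero N] {k : ℤ} (g : ModularForm 𝒮ℒ k) :
    (⇑(dilate N g) : ℍ → ℂ) = (((N : ℝ) ^ (k - 1))⁻¹ : ℝ) • (⇑g ∣[k] heckeDiagMatrix N) := rfl

theorem dilate_apply (N : ℕ) [NeZero N] {k : ℤ} (g : ModularForm 𝒮ℒ k) (z : ℍ) :
    dilate N g z = g (heckeDiagMatrix N • z) := by
  have hN : (N : ℂ) ≠ 0 := by exact_mod_cast NeZero.ne N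
  rw [coe_dilate, Pi.smul_apply, ← coe_levelRaise, levelRaise_apply]
  simp only [Complex.real_smul, Complex.ofReal_inv, Complex.ofReal_zpow, Complex.ofReal_natCast]
  rw [← mul_assoc, inv_mul_cancel₀ (zpow_ne_zero _ hN), one_mul]

theorem coe_heckeDiagMatrix_smul' (N : ℕ) [NeZero N] (z : ℍ) :
    ((heckeDiagMatrix N • z : ℍ) : ℂ) = (N : ℂ) * (z : ℂ) :=
  coe_heckeDiagMatrix_smul (NeZero.ne N) z

theorem qParam_heckeDiagMatrix_smul (N : ℕ) [NeZero N] (τ : ℍ) :
    𝕢 1 ((heckeDiagMatrix N • τ : ℍ) : ℂ) = 𝕢 1 (τ : ℂ) ^ N := by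
  rw [coe_heckeDiagMatrix_smul (NeZero.ne N)]
  simp only [Function.Periodic.qParam, ← Complex.exp_nat_mul]
  congr 1
  push_cast
  ring

/-- The `q`-expansion of `z ↦ g (N z)`. -/
theorem qExpansion_dilate_coeff (N : ℕ) [NeZero N] {k : ℤ} (g : ModularForm 𝒮ℒ k) (n : ℕ) :
    (qExpansion 1 (dilate N g)).coeff n =
      if N ∣ n then (qExpansion 1 g).coeff (n / N) else 0 := by
  set c : ℕ → ℂ := fun n => if N ∣ n then (qExpansion 1 g).coeff (n / N) else 0 with hc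
  have h1 : (1 : ℝ) ∈ ((Gamma0 N : Subgroup SL(2, ℤ)) : Subgroup (GL (Fin 2) ℝ)).strictPeriods :=
    CongruenceSubgroup.one_mem_strictPeriods_Gamma0 N
  refine (ModularFormClass.qExpansion_coeff_unique one_pos h1 (f := dilate N g) (c := c) ?_ n).symm
  intro τ
  rw [dilate_apply]
  have hg := ModularForm.hasSum_qExpansion (f := g) one_pos one_mem_strictPeriods_SL
    (heckeDiagMatrix N • τ)
  rw [qParam_heckeDiagMatrix_smul] at hg
  have hN : 0 < N := Nat.pos_of_ne_zero (NeZero.ne N)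
  have hinj : Function.Injective (fun m : ℕ => N * m) := fun a b h =>
    Nat.eq_of_mul_eq_mul_left hN h
  rw [← hinj.hasSum_iff]
  · convert hg using 2 with m
    simp only [Function.comp_apply, hc, dvd_mul_right, if_true, Nat.mul_div_cancel_left _ hN,
      smul_eq_mul, pow_mul]
  · intro x hx
    have : ¬ N ∣ x := fun ⟨m, hm⟩ => hx ⟨m, hm.symm⟩
    simp [hc, this]

/-- A level-one modular form tends to its constant `q`-coefficient at `i∞`. -/
theorem tendsto_atImInfty_coeff_zero {k : ℤ} (g : ModularForm 𝒮ℒ k) :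
    Tendsto g atImInfty (𝓝 ((qExpansion 1 g).coeff 0)) := by
  have han := ModularFormClass.analyticAt_cuspFunction_zero g one_pos one_mem_strictPeriods_SL
  have hcomp : (cuspFunction 1 g ∘ fun τ : ℍ ↦ 𝕢 1 τ) = g := by
    funext τ
    exact SlashInvariantFormClass.eq_cuspFunction g τ one_mem_strictPeriods_SL one_ne_zero
  have h0 : (qExpansion 1 g).coeff 0 = cuspFunction 1 g 0 := by
    simp [qExpansion_coeff]
  rw [h0]
  have := han.continuousAt.tendsto.comp (qParam_tendsto_atImInfty (h := 1) one_pos)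
  rwa [hcomp] at this

theorem tendsto_E₄_atImInfty : Tendsto E₄ atImInfty (𝓝 1) := by
  have := tendsto_atImInfty_coeff_zero E₄
  rwa [show (qExpansion 1 E₄).coeff 0 = 1 from EisensteinSeries.E_qExpansion_coeff_zero _ ⟨2, rfl⟩]
    at this

/-- The `q`-expansion of `E₄` has integer coefficients. -/
theorem E₄_qExpansion_coeff_int (m : ℕ) : ∃ z : ℤ, (qExpansion 1 E₄).coeff m = (z : ℂ) := by
  have h := EisensteinSeries.E_qExpansion_coeff (k := 4) (by norm_num) ⟨2, rfl⟩ m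
  by_cases hm : m = 0
  · exact ⟨1, by rw [show (⇑E₄ : ℍ → ℂ) = ⇑(E (k := 4) (by norm_num)) from rfl, h]; simp [hm]⟩
  · refine ⟨240 * (ArithmeticFunction.sigma 3 m : ℕ), ?_⟩
    rw [show (⇑E₄ : ℍ → ℂ) = ⇑(E (k := 4) (by norm_num)) from rfl, h, if_neg hm]
    norm_num [show bernoulli 4 = -1 / 30 by decide +kernel]

open Matrix.SpecialLinearGroup in
/-- Hermite-type decomposition: `diag(N,1) * γ = δ * β` with `δ ∈ SL(2,ℤ)` and `β` upper
triangular with positive integer diagonal `(g, d')`, `g * d' = N`, and `γ 1 0 = g * v`. -/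
theorem exists_decomp (N : ℕ) [NeZero N] (γ : SL(2, ℤ)) :
    ∃ (δ : SL(2, ℤ)) (g d' b' v : ℤ) (had : (g : ℝ) * (d' : ℝ) ≠ 0),
      0 < g ∧ 0 < d' ∧ g * d' = N ∧ γ 1 0 = g * v ∧
      heckeDiagMatrix N * mapGL ℝ γ = mapGL ℝ δ * upperTriangularGL g b' d' had := by
  have hN : N ≠ 0 := NeZero.ne N
  have hdet : γ 0 0 * γ 1 1 - γ 0 1 * γ 1 0 = 1 := by
    have := γ.det_coe
    rwa [Matrix.det_fin_two] at this
  set a := γ 0 0 with ha
  set b := γ 0 1 with hb
  set c := γ 1 0 with hc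
  set d := γ 1 1 with hd
  set g : ℤ := ((Int.gcd (N * a) c : ℕ) : ℤ) with hg
  obtain ⟨u, hu⟩ : g ∣ N * a := Int.gcd_dvd_left _ _
  obtain ⟨v, hv⟩ : g ∣ c := Int.gcd_dvd_right _ _
  have hbez : g = N * a * Int.gcdA (N * a) c + c * Int.gcdB (N * a) c := Int.gcd_eq_gcd_ab _ _
  set A := Int.gcdA (N * a) c
  set B := Int.gcdB (N * a) c
  have hg0 : g ≠ 0 := by
    intro h0
    have h1 : (N : ℤ) * a = 0 := by rw [hu, h0, zero_mul]
    have h2 : c = 0 := by rw [hv, h0, zero_mul]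
    have h3 : a = 0 := by
      rcases mul_eq_zero.mp h1 with h | h
      · exact absurd (by exact_mod_cast h) hN
      · exact h
    rw [h2, h3] at hdet
    simp at hdet
  have hgpos : 0 < g := lt_of_le_of_ne (by positivity) (Ne.symm hg0)
  have huv : u * A + v * B = 1 := by
    have : g * (u * A + v * B) = g * 1 := by
      linear_combination (-1 : ℤ) * hbez - A * hu - B * hv
    exact mul_left_cancel₀ hg0 this
  set d' : ℤ := u * d - v * N * b with hd'
  have hgd : g * d' = N := by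
    have : g * d' = (g * u) * d - (g * v) * N * b := by rw [hd']; ring
    rw [this, ← hu, ← hv]
    linear_combination (N : ℤ) * hdet
  have hd'pos : 0 < d' := by
    have : 0 < g * d' := by rw [hgd]; exact_mod_cast Nat.pos_of_ne_zero hN
    exact (pos_iff_pos_of_mul_pos this).mp hgpos
  have had : (g : ℝ) * (d' : ℝ) ≠ 0 := by
    have : (g : ℝ) * (d' : ℝ) = N := by exact_mod_cast hgd
    rw [this]; exact_mod_cast hN
  let δ : SL(2, ℤ) := ⟨!![u, -B; v, A], by
    rw [Matrix.det_fin_two_of]; linear_combination huv⟩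
  refine ⟨δ, g, d', A * N * b + B * d, v, had, hgpos, hd'pos, hgd, hv, ?_⟩
  apply Matrix.GeneralLinearGroup.ext
  intro i j
  rw [Matrix.GeneralLinearGroup.coe_mul, Matrix.GeneralLinearGroup.coe_mul,
    val_heckeDiagMatrix hN, val_upperTriangularGL, Matrix.mul_apply, Matrix.mul_apply,
    Fin.sum_univ_two, Fin.sum_univ_two]
  simp only [Fermat.Agent.H62.mapGL_apply]
  have huR : (N : ℝ) * (a : ℝ) = g * u := by exact_mod_cast hu
  have hvR : (c : ℝ) = g * v := by exact_mod_cast hv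
  have huvR : (u : ℝ) * A + v * B = 1 := by exact_mod_cast huv
  fin_cases i <;> fin_cases j
  · simp [δ]; linear_combination huR
  · simp [δ, hd']; linear_combination (-(N : ℝ) * b) * huvR
  · simp [δ]; linear_combination hvR
  · simp [δ, hd']; linear_combination (-(d : ℝ)) * huvR

theorem slash_upperTriangularGL_apply (k : ℤ) (g b d : ℤ) (had : (g : ℝ) * (d : ℝ) ≠ 0)
    (hg : 0 < g) (hd : 0 < d) (f : ℍ → ℂ) (z : ℍ) :
    (f ∣[k] upperTriangularGL g b d had) z =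
      f (upperTriangularGL g b d had • z) * ((g : ℂ) * (d : ℂ)) ^ (k - 1) * (d : ℂ) ^ (-k) := by
  have hdetv : ((upperTriangularGL g b d had).det : ℝ) = (g : ℝ) * d := by
    rw [Matrix.GeneralLinearGroup.val_det_apply, val_upperTriangularGL, Matrix.det_fin_two_of]
    ring
  have hpos : (0 : ℝ) < (g : ℝ) * d := by
    have h1 : (0 : ℝ) < g := by exact_mod_cast hg
    have h2 : (0 : ℝ) < d := by exact_mod_cast hd
    positivity
  have hσ : UpperHalfPlane.σ (upperTriangularGL g b d had) = .refl ℝ ℂ := by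
    rw [UpperHalfPlane.σ, if_pos (by rw [hdetv]; exact hpos)]
  have hden : UpperHalfPlane.denom (upperTriangularGL g b d had) z = (d : ℂ) := by
    simp [UpperHalfPlane.denom, val_upperTriangularGL]
  rw [ModularForm.slash_apply, hσ, hdetv, hden, abs_of_pos hpos]
  simp

/-- The stabiliser of `z ↦ E₄ (N z)` in `SL(2, ℤ)` (weight-4 slash action) is `Γ₀(N)`. -/
theorem mem_Gamma0_of_slash_eq (N : ℕ) [NeZero N] (γ : SL(2, ℤ))
    (h : ⇑(dilate N E₄) ∣[(4 : ℤ)] γ = ⇑(dilate N E₄)) : γ ∈ Gamma0 N := by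
  have hN : N ≠ 0 := NeZero.ne N
  have hNC : (N : ℂ) ≠ 0 := by exact_mod_cast hN
  -- Step 1: remove the scalar
  have h1 : (⇑E₄ ∣[(4 : ℤ)] heckeDiagMatrix N) ∣[(4 : ℤ)]
      (Matrix.SpecialLinearGroup.mapGL ℝ γ) = ⇑E₄ ∣[(4 : ℤ)] heckeDiagMatrix N := by
    rw [coe_dilate, SL_smul_slash] at h
    have hs : ((((N : ℝ) ^ ((4 : ℤ) - 1))⁻¹ : ℝ)) ≠ 0 := by
      have : (N : ℝ) ≠ 0 := by exact_mod_cast hN
      exact inv_ne_zero (zpow_ne_zero _ this)
    exact smul_right_injective _ hs h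
  -- Step 2: Hermite decomposition
  obtain ⟨δ, g, d', b', v, had, hgpos, hd'pos, hgd, hv, hmat⟩ := exists_decomp N γ
  have h2 : ⇑E₄ ∣[(4 : ℤ)] upperTriangularGL g b' d' had = ⇑E₄ ∣[(4 : ℤ)] heckeDiagMatrix N := by
    rw [← SlashAction.slash_mul, hmat, SlashAction.slash_mul] at h1
    have h3 : ⇑E₄ ∣[(4 : ℤ)] (Matrix.SpecialLinearGroup.mapGL ℝ δ) = ⇑E₄ :=
      SlashInvariantFormClass.slash_action_eq E₄ _ ⟨δ, rfl⟩
    rwa [h3] at h1
  -- Step 3: limits at i∞
  have hβ10 : (upperTriangularGL g b' d' had) 1 0 = 0 := by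
    simp [val_upperTriangularGL]
  have hα10 : (heckeDiagMatrix N) 1 0 = 0 := by
    simp [val_heckeDiagMatrix hN]
  have hL : Tendsto (⇑E₄ ∣[(4 : ℤ)] upperTriangularGL g b' d' had) atImInfty
      (𝓝 (1 * ((g : ℂ) * (d' : ℂ)) ^ ((4 : ℤ) - 1) * (d' : ℂ) ^ (-(4 : ℤ)))) := by
    have := (tendsto_E₄_atImInfty.comp (tendsto_smul_atImInfty hβ10))
    have h4 := (this.mul_const (((g : ℂ) * (d' : ℂ)) ^ ((4 : ℤ) - 1))).mul_const
      ((d' : ℂ) ^ (-(4 : ℤ)))
    refine h4.congr fun z => ?_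
    rw [slash_upperTriangularGL_apply 4 g b' d' had hgpos hd'pos]
    rfl
  have hR : Tendsto (⇑E₄ ∣[(4 : ℤ)] heckeDiagMatrix N) atImInfty
      (𝓝 ((N : ℂ) ^ ((4 : ℤ) - 1) * 1)) := by
    have := (tendsto_E₄_atImInfty.comp (tendsto_smul_atImInfty hα10))
    have h4 := this.const_mul ((N : ℂ) ^ ((4 : ℤ) - 1))
    refine h4.congr fun z => ?_
    rw [slash_heckeDiagMatrix_apply 4 hN]
    rfl
  rw [h2] at hL
  have heq := tendsto_nhds_unique hL hR
  have hgdC : (g : ℂ) * (d' : ℂ) = N := by exact_mod_cast hgd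
  rw [hgdC, one_mul, mul_one] at heq
  have hd4 : (d' : ℂ) ^ (-(4 : ℤ)) = 1 := by
    have h5 : (N : ℂ) ^ ((4 : ℤ) - 1) ≠ 0 := zpow_ne_zero _ hNC
    exact mul_left_cancel₀ h5 (by rw [heq, mul_one])
  have hd4' : (d' : ℂ) ^ 4 = 1 := by
    rw [zpow_neg, inv_eq_one] at hd4
    exact_mod_cast hd4
  have hd4Z : d' ^ 4 = 1 := by exact_mod_cast hd4'
  have hd1 : d' = 1 := by
    have h6 : d' ≤ 1 := by
      by_contra hlt
      have : (2 : ℤ) ≤ d' := by omega
      nlinarith [pow_pos hd'pos 2, pow_pos hd'pos 3]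
    omega
  rw [hd1, mul_one] at hgd
  rw [Gamma0_mem, hv, hgd]
  simp

/-- **INT-5.** There is a weight-4 modular form on `Γ₀(N)` with integral `q`-expansion whose
stabiliser in `SL(2, ℤ)` is exactly `Γ₀(N)`, namely `z ↦ E₄ (N z)`. -/
theorem exists_separating_form (N : ℕ) [NeZero N] :
    ∃ t : ModularForm (Gamma0 N) 4,
      (∀ n, ∃ m : ℤ, PowerSeries.coeff n (qExpansion 1 t) = (m : ℂ)) ∧
      ∀ γ : SL(2, ℤ), (⇑t ∣[(4 : ℤ)] γ = ⇑t) → γ ∈ Gamma0 N := by
  refine ⟨dilate N E₄, fun n => ?_, fun γ h => mem_Gamma0_of_slash_eq N γ h⟩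
  rw [qExpansion_dilate_coeff]
  split_ifs
  · exact E₄_qExpansion_coeff_int _
  · exact ⟨0, by simp⟩

/-- The weaker DIM-7 form of the statement. -/
theorem exists_separating_form' (N : ℕ) [NeZero N] :
    ∃ (k : ℤ) (F : ModularForm (Gamma0 N) k), ∀ γ : SL(2, ℤ), (⇑F ∣[k] γ = ⇑F) → γ ∈ Gamma0 N := by
  obtain ⟨t, -, ht⟩ := exists_separating_form N
  exact ⟨4, t, ht⟩

end Fermat.Agent.H62
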