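import Fermat.Agent.H62.ClaimZ
import Fermat.Agent.H13.S14Interfaces
import Fermat.Agent.H54.S14Split
import Fermat.Agent.H15.S14Neg
import Fermat.Agent.H3.ClassZetaBounded

/-!
# Claim Z (S14 / C4), final form `Fermat.Agent.H13.ClaimZStatement`

Glue of the analytic assembly (`Fermat.Agent.H62.exists_prime_phi_ne_one`) with
C4c (`Fermat.Agent.H3.classZetaBounded`), C4d (`Fermat.Agent.H54.exists_split_field`) and the
negligibility of primes of degree `≥ 2` (`Fermat.Agent.H15.summable_inv_absNorm_not_degOne`).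
-/

open IsDedekindDomain NumberField Ideal
open scoped nonZeroDivisors

namespace Fermat.Agent.H62

/-- a prime ideal whose absolute norm is a prime `ℓ ≠ p` does not contain `p`. -/
lemma natCast_notMem_of_absNorm_prime {K : Type*} [Field K] [NumberField K]
    (v : HeightOneSpectrum (𝓞 K)) (p : ℕ) (hp : p.Prime)
    (hv : (absNorm v.asIdeal).Prime) (hne : absNorm v.asIdeal ≠ p) :
    ((p : ℕ) : 𝓞 K) ∉ v.asIdeal := by
  intro hmem
  have hl : ((absNorm v.asIdeal : ℕ) : 𝓞 K) ∈ v.asIdeal := Ideal.absNorm_mem v.asIdeal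
  have hcop : Nat.Coprime (absNorm v.asIdeal) p := (Nat.coprime_primes hv hp).mpr hne
  have hcop' : IsCoprime ((absNorm v.asIdeal : ℕ) : ℤ) (p : ℤ) := Nat.isCoprime_iff_coprime.mpr hcop
  obtain ⟨a, b, hab⟩ := hcop'
  have h1 : (1 : 𝓞 K) ∈ v.asIdeal := by
    have h2 : ((a * (absNorm v.asIdeal : ℤ) + b * (p : ℤ) : ℤ) : 𝓞 K) = 1 := by
      rw [hab]; simp
    rw [← h2]
    push_cast
    exact v.asIdeal.add_mem (v.asIdeal.mul_mem_left _ hl) (v.asIdeal.mul_mem_left _ hmem)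
  exact v.isPrime.ne_top ((Ideal.eq_top_iff_one _).mpr h1)

/-- **Claim Z** from C4c. -/
theorem claimZ_of_classZetaBounded (hC4c : Fermat.Agent.H13.ClassZetaBoundedStatement) :
    Fermat.Agent.H13.ClaimZStatement := by
  intro p _ hp5 K _ _ _ γ hγ hnp φ hφ
  have hpp : p.Prime := Fact.out
  obtain ⟨ζ, hζ⟩ := IsCyclotomicExtension.exists_isPrimitiveRoot ℚ (B := K)
    (Set.mem_singleton p) hpp.ne_zero
  set S : Set (HeightOneSpectrum (𝓞 K)) :=
    {v | ((p : ℕ) : 𝓞 K) ∉ v.asIdeal ∧ ∃ x : 𝓞 K, γ - x ^ p ∈ v.asIdeal} with hS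
  set T : Set (HeightOneSpectrum (𝓞 K)) :=
    {v | ¬ (absNorm v.asIdeal).Prime ∨ absNorm v.asIdeal = p} with hT
  obtain ⟨M, _, _, e, he, hN⟩ :=
    Fermat.Agent.H54.exists_split_field p K ζ hζ γ hγ hnp S (fun v hv => hv)
  have hTsum : Summable (fun v : T => (absNorm v.1.asIdeal : ℝ)⁻¹) :=
    Fermat.Agent.H15.summable_inv_absNorm_not_degOne K p
  obtain ⟨v, hvS, hvT, hvφ⟩ := exists_prime_phi_ne_one K p M (by omega) φ hφ S e he hN T hTsum
    (hC4c K)
  have hvT' : (absNorm v.asIdeal).Prime ∧ absNorm v.asIdeal ≠ p := by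
    simp only [hT, Set.mem_ofPred_eq, not_or, not_not] at hvT
    exact hvT
  refine ⟨⟨v.asIdeal, mem_nonZeroDivisors_iff_ne_zero.mpr v.ne_bot⟩,
    ⟨v.isPrime, hvT'.1, hvT'.2⟩, hvφ, ?_⟩
  intro hpow
  apply hvS
  exact ⟨natCast_notMem_of_absNorm_prime v p hpp hvT'.1 hvT'.2, hpow⟩

/-- **Claim Z** (`Fermat.Agent.H13.ClaimZStatement`), unconditional. -/
theorem claimZ : Fermat.Agent.H13.ClaimZStatement :=
  claimZ_of_classZetaBounded Fermat.Agent.H3.classZetaBounded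

end Fermat.Agent.H62
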