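import Fermat.Agent.H62.IdealEuler

/-!
# Dedekind zeta function as a sum over ideals, prime sums, class zeta functions

S14 / C4b.  Mathlib only (plus `Fermat.Agent.H62.IdealEuler`).
-/

open Filter Topology IsDedekindDomain NumberField Ideal
open scoped nonZeroDivisors

namespace Fermat.Agent.H62

variable (K : Type*) [Field K] [NumberField K]

/-! ### Multiplicative functions on ideals -/

/-- `N(I)^{-s}` as a multiplicative function on ideals (value `0` at `⊥`). -/
noncomputable def normPowHom (s : ℝ) (hs : s ≠ 0) : Ideal (𝓞 K) →*₀ ℝ where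
  toFun I := (absNorm I : ℝ) ^ (-s)
  map_zero' := by simp [Real.zero_rpow (neg_ne_zero.mpr hs)]
  map_one' := by simp
  map_mul' I J := by
    simp only [map_mul, Nat.cast_mul]
    exact Real.mul_rpow (Nat.cast_nonneg _) (Nat.cast_nonneg _)

/-- the ideal class of an ideal (junk value `1` at `⊥`). -/
noncomputable def cls (I : Ideal (𝓞 K)) : ClassGroup (𝓞 K) :=
  if h : I = ⊥ then 1 else ClassGroup.mk0 ⟨I, mem_nonZeroDivisors_iff_ne_zero.mpr h⟩

lemma cls_mul {I J : Ideal (𝓞 K)} (hI : I ≠ ⊥) (hJ : J ≠ ⊥) :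
    cls K (I * J) = cls K I * cls K J := by
  have hIJ : I * J ≠ ⊥ := mul_ne_zero hI hJ
  simp only [cls, hI, hJ, hIJ, dite_false]
  rw [← map_mul]
  rfl

lemma cls_one : cls K (1 : Ideal (𝓞 K)) = 1 := by
  have h1 : (1 : Ideal (𝓞 K)) ≠ ⊥ := one_ne_zero
  simp only [cls, h1, dite_false]
  exact map_one (ClassGroup.mk0 (R := 𝓞 K))

lemma cls_top : cls K (⊤ : Ideal (𝓞 K)) = 1 := by
  rw [← Ideal.one_eq_top]; exact cls_one K

lemma cls_coe (I : (Ideal (𝓞 K))⁰) : cls K (I : Ideal (𝓞 K)) = ClassGroup.mk0 I := by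
  have h : (I : Ideal (𝓞 K)) ≠ ⊥ := mem_nonZeroDivisors_iff_ne_zero.mp I.2
  simp only [cls, h, dite_false]

/-- `χ([I]) N(I)^{-s}` as a multiplicative function on ideals. -/
noncomputable def charPowHom (χ : ClassGroup (𝓞 K) →* ℂ) (s : ℝ) (hs : s ≠ 0) :
    Ideal (𝓞 K) →*₀ ℂ where
  toFun I := χ (cls K I) * (((absNorm I : ℝ) ^ (-s) : ℝ) : ℂ)
  map_zero' := by simp [Real.zero_rpow (neg_ne_zero.mpr hs)]
  map_one' := by simp [cls_top]
  map_mul' I J := by
    by_cases hI : I = ⊥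
    · subst hI
      simp [Real.zero_rpow (neg_ne_zero.mpr hs)]
    by_cases hJ : J = ⊥
    · subst hJ
      simp [Real.zero_rpow (neg_ne_zero.mpr hs)]
    rw [cls_mul K hI hJ, map_mul, map_mul, Nat.cast_mul,
      Real.mul_rpow (Nat.cast_nonneg _) (Nat.cast_nonneg _)]
    push_cast
    ring

lemma charPowHom_apply (χ : ClassGroup (𝓞 K) →* ℂ) (s : ℝ) (hs : s ≠ 0) (I : Ideal (𝓞 K)) :
    charPowHom K χ s hs I = χ (cls K I) * (((absNorm I : ℝ) ^ (-s) : ℝ) : ℂ) := rfl

lemma normPowHom_apply (s : ℝ) (hs : s ≠ 0) (I : Ideal (𝓞 K)) :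
    normPowHom K s hs I = (absNorm I : ℝ) ^ (-s) := rfl

/-! ### Summability and the Dedekind zeta function -/

lemma tendsto_sum_card_div :
    Tendsto (fun n : ℕ => (∑ k ∈ Finset.Icc 1 n,
      (Nat.card {I : Ideal (𝓞 K) // absNorm I = k} : ℝ)) / (n : ℝ)) atTop
      (𝓝 (dedekindZeta_residue K)) := by
  refine ((NumberField.Ideal.tendsto_norm_le_div_atTop₀ K).comp
    tendsto_natCast_atTop_atTop).congr fun n ↦ ?_
  simp only [Function.comp_apply, Nat.cast_le, ← Nat.cast_sum]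
  congr
  rw [← add_left_inj 1, ← card_norm_le_eq_card_norm_le_add_one,
    show Finset.Icc 1 n = Finset.Ioc 0 n from Finset.Icc_succ_left_eq_Ioc _ _,
    show 1 = Nat.card {I : Ideal (𝓞 K) // absNorm I = 0} by simp [Ideal.absNorm_eq_zero_iff],
    Finset.sum_Ioc_add_eq_sum_Icc (n.zero_le),
    ← Finset.card_preimage_eq_sum_card_image_eq (fun k _ ↦ finite_setOfPred_absNorm_eq k)]
  simp [Set.coe_eq_subtype]

lemma lseriesSummable_card {s : ℝ} (hs : 1 < s) :
    LSeriesSummable (fun n => ((Nat.card {I : Ideal (𝓞 K) // absNorm I = n} : ℝ) : ℂ)) s := by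
  refine LSeriesSummable_of_sum_norm_bigO_and_nonneg ?_ (fun _ => Nat.cast_nonneg _)
    zero_le_one (by simpa using hs)
  exact Asymptotics.isBigO_atTop_natCast_rpow_of_tendsto_div_rpow
    (by simpa using tendsto_sum_card_div K)

/-- real version of the summability of the Dedekind zeta series, indexed by `ℕ`. -/
lemma summable_card_mul_rpow {s : ℝ} (hs : 1 < s) :
    Summable (fun n : ℕ =>
      (Nat.card {I : Ideal (𝓞 K) // absNorm I = n} : ℝ) * (n : ℝ) ^ (-s)) := by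
  have h := lseriesSummable_card K hs
  rw [LSeriesSummable] at h
  rw [← Complex.summable_ofReal]
  refine h.congr fun n => ?_
  rcases Nat.eq_zero_or_pos n with rfl | hn
  · have : -s ≠ 0 := by linarith
    simp [LSeries.term, Real.zero_rpow this]
  · rw [LSeries.term_of_ne_zero hn.ne']
    push_cast
    rw [Complex.ofReal_cpow (Nat.cast_nonneg n), Complex.ofReal_neg, Complex.cpow_neg]
    simp [div_eq_mul_inv]

lemma tsum_fiber_absNorm (s : ℝ) (n : ℕ) :
    ∑' I : {I : Ideal (𝓞 K) // absNorm I = n}, (absNorm (I : Ideal (𝓞 K)) : ℝ) ^ (-s)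
      = (Nat.card {I : Ideal (𝓞 K) // absNorm I = n} : ℝ) * (n : ℝ) ^ (-s) := by
  have : ∀ I : {I : Ideal (𝓞 K) // absNorm I = n},
      (absNorm (I : Ideal (𝓞 K)) : ℝ) ^ (-s) = (n : ℝ) ^ (-s) := fun I => by rw [I.2]
  simp only [this, tsum_const, nsmul_eq_mul]

/-- `∑_I N(I)^{-s}` converges for `s > 1`. -/
lemma summable_absNorm_rpow {s : ℝ} (hs : 1 < s) :
    Summable (fun I : Ideal (𝓞 K) => (absNorm I : ℝ) ^ (-s)) := by
  rw [← (Equiv.sigmaFiberEquiv (fun I : Ideal (𝓞 K) => absNorm I)).summable_iff]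
  refine (summable_sigma_of_nonneg (fun _ => Real.rpow_nonneg (Nat.cast_nonneg _) _)).mpr ?_
  refine ⟨fun n => ?_, ?_⟩
  · have : Finite {I : Ideal (𝓞 K) // absNorm I = n} := finite_setOfPred_absNorm_eq n
    exact Summable.of_finite
  · refine (summable_card_mul_rpow K hs).congr fun n => ?_
    exact (tsum_fiber_absNorm K s n).symm

/-- The Dedekind zeta function as a sum over ideals, real argument. -/
noncomputable def idealZeta (s : ℝ) : ℝ := ∑' I : Ideal (𝓞 K), (absNorm I : ℝ) ^ (-s)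

lemma idealZeta_eq_tsum_nat {s : ℝ} (hs : 1 < s) :
    idealZeta K s =
      ∑' n : ℕ, (Nat.card {I : Ideal (𝓞 K) // absNorm I = n} : ℝ) * (n : ℝ) ^ (-s) := by
  have h := summable_absNorm_rpow K hs
  rw [idealZeta, ← (Equiv.sigmaFiberEquiv (fun I : Ideal (𝓞 K) => absNorm I)).tsum_eq]
  rw [← (Equiv.sigmaFiberEquiv (fun I : Ideal (𝓞 K) => absNorm I)).summable_iff] at h
  exact (h.tsum_sigma).trans (tsum_congr fun n => tsum_fiber_absNorm K s n)

/-- `idealZeta` is Mathlib's `dedekindZeta` on real arguments `> 1`. -/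
lemma ofReal_idealZeta {s : ℝ} (hs : 1 < s) : ((idealZeta K s : ℝ) : ℂ) = dedekindZeta K s := by
  rw [idealZeta_eq_tsum_nat K hs, dedekindZeta, LSeries, Complex.ofReal_tsum]
  refine tsum_congr fun n => ?_
  rcases Nat.eq_zero_or_pos n with rfl | hn
  · have : -s ≠ 0 := by linarith
    simp [LSeries.term, Real.zero_rpow this]
  · rw [LSeries.term_of_ne_zero hn.ne']
    push_cast
    rw [Complex.ofReal_cpow (Nat.cast_nonneg n), Complex.ofReal_neg, Complex.cpow_neg]
    simp [div_eq_mul_inv]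

lemma tendsto_sub_one_mul_idealZeta :
    Tendsto (fun s : ℝ => (s - 1) * idealZeta K s) (𝓝[>] 1) (𝓝 (dedekindZeta_residue K)) := by
  have h := tendsto_sub_one_mul_dedekindZeta_nhdsGT K
  have h2 : Tendsto (fun s : ℝ => (((s - 1) * idealZeta K s : ℝ) : ℂ)) (𝓝[>] 1)
      (𝓝 ((dedekindZeta_residue K : ℝ) : ℂ)) := by
    refine h.congr' ?_
    filter_upwards [self_mem_nhdsWithin] with s hs
    rw [Complex.ofReal_mul, ofReal_idealZeta K hs]
    push_cast
    rfl
  exact (Complex.continuous_re.tendsto _).comp h2 |>.congr (fun s => by simp)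

lemma one_le_idealZeta {s : ℝ} (hs : 1 < s) : 1 ≤ idealZeta K s := by
  have h := summable_absNorm_rpow K hs
  have := h.le_tsum (⊤ : Ideal (𝓞 K)) (fun _ _ => Real.rpow_nonneg (Nat.cast_nonneg _) _)
  simpa [idealZeta] using this

lemma idealZeta_pos {s : ℝ} (hs : 1 < s) : 0 < idealZeta K s :=
  lt_of_lt_of_le one_pos (one_le_idealZeta K hs)

/-- Near `s = 1⁺`, `c / (s - 1) ≤ ζ_K(s) ≤ C / (s - 1)` with explicit `c = res / 2`,
`C = 2 res`. -/
lemma eventually_idealZeta_bounds :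
    ∀ᶠ s : ℝ in 𝓝[>] 1, dedekindZeta_residue K / 2 ≤ (s - 1) * idealZeta K s ∧
      (s - 1) * idealZeta K s ≤ 2 * dedekindZeta_residue K := by
  have hres := dedekindZeta_residue_pos K
  have h := tendsto_sub_one_mul_idealZeta K
  have h1 : ∀ᶠ s : ℝ in 𝓝[>] 1, dedekindZeta_residue K / 2 < (s - 1) * idealZeta K s :=
    h.eventually (lt_mem_nhds (by linarith))
  have h2 : ∀ᶠ s : ℝ in 𝓝[>] 1, (s - 1) * idealZeta K s < 2 * dedekindZeta_residue K :=
    h.eventually (gt_mem_nhds (by linarith))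
  filter_upwards [h1, h2] with s hs1 hs2
  exact ⟨hs1.le, hs2.le⟩


/-! ### General lemmas on real infinite products with factors `≥ 1` -/

lemma finset_prod_le_of_hasProd {ι : Type*} {g : ι → ℝ} {a : ℝ} (h : HasProd g a)
    (h1 : ∀ i, 1 ≤ g i) (T : Finset ι) : ∏ i ∈ T, g i ≤ a := by
  classical
  refine ge_of_tendsto h ?_
  filter_upwards [eventually_ge_atTop T] with S hS
  rw [← Finset.prod_sdiff hS]
  have h2 : (1 : ℝ) ≤ ∏ i ∈ S \ T, g i := by
    calc (1 : ℝ) = ∏ i ∈ S \ T, (1 : ℝ) := by simp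
      _ ≤ ∏ i ∈ S \ T, g i :=
        Finset.prod_le_prod (fun _ _ => zero_le_one) (fun i _ => h1 i)
  have h3 : 0 ≤ ∏ i ∈ T, g i := Finset.prod_nonneg fun i _ => zero_le_one.trans (h1 i)
  nlinarith

lemma one_sub_inv_ge_exp {x : ℝ} (_h0 : 0 ≤ x) (h1 : x < 1) : Real.exp x ≤ (1 - x)⁻¹ := by
  have h := Real.add_one_le_exp (-x)
  have hpos : 0 < 1 - x := by linarith
  rw [le_inv_comm₀ (Real.exp_pos x) hpos, ← Real.exp_neg]
  linarith

lemma one_sub_inv_le_exp {x : ℝ} (h0 : 0 ≤ x) (h1 : x ≤ 1 / 2) :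
    (1 - x)⁻¹ ≤ Real.exp (x + 2 * x ^ 2) := by
  have hpos : 0 < 1 - x := by linarith
  have h := Real.add_one_le_exp (x / (1 - x))
  have h2 : (1 - x)⁻¹ = x / (1 - x) + 1 := by field_simp; ring
  have h3 : x / (1 - x) ≤ x + 2 * x ^ 2 := by
    rw [div_le_iff₀ hpos]
    nlinarith [sq_nonneg x, mul_nonneg h0 (sq_nonneg x)]
  calc (1 - x)⁻¹ = x / (1 - x) + 1 := h2
    _ ≤ Real.exp (x / (1 - x)) := h
    _ ≤ Real.exp (x + 2 * x ^ 2) := Real.exp_le_exp.mpr h3

/-! ### Prime sums -/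

/-- `N(v)^{-s}` -/
noncomputable def primeTerm (s : ℝ) (v : HeightOneSpectrum (𝓞 K)) : ℝ :=
  (absNorm v.asIdeal : ℝ) ^ (-s)

lemma two_le_absNorm (v : HeightOneSpectrum (𝓞 K)) : 2 ≤ absNorm v.asIdeal := by
  have h0 : absNorm v.asIdeal ≠ 0 := by
    rw [Ne, absNorm_eq_zero_iff]; exact v.ne_bot
  have h1 : absNorm v.asIdeal ≠ 1 := by
    rw [Ne, absNorm_eq_one_iff]; exact v.isPrime.ne_top
  omega

lemma primeTerm_pos (s : ℝ) (v : HeightOneSpectrum (𝓞 K)) : 0 < primeTerm K s v := by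
  have := two_le_absNorm K v
  exact Real.rpow_pos_of_pos (by exact_mod_cast (by omega : 0 < absNorm v.asIdeal)) _

lemma primeTerm_anti {s t : ℝ} (h : s ≤ t) (v : HeightOneSpectrum (𝓞 K)) :
    primeTerm K t v ≤ primeTerm K s v := by
  have := two_le_absNorm K v
  exact Real.rpow_le_rpow_of_exponent_le (by exact_mod_cast (by omega : 1 ≤ absNorm v.asIdeal))
    (by linarith)

lemma primeTerm_le_half {s : ℝ} (hs : 1 ≤ s) (v : HeightOneSpectrum (𝓞 K)) :
    primeTerm K s v ≤ 1 / 2 := by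
  refine (primeTerm_anti K hs v).trans ?_
  have h2 := two_le_absNorm K v
  have h2' : (2 : ℝ) ≤ absNorm v.asIdeal := by exact_mod_cast h2
  rw [primeTerm, Real.rpow_neg_one, one_div]
  exact inv_anti₀ (by norm_num) h2'

lemma primeTerm_sq_le {s : ℝ} (hs : 1 ≤ s) (v : HeightOneSpectrum (𝓞 K)) :
    primeTerm K s v ^ 2 ≤ primeTerm K 2 v := by
  have h2 := two_le_absNorm K v
  have h0 : (0 : ℝ) ≤ absNorm v.asIdeal := Nat.cast_nonneg _
  have h1 : (1 : ℝ) ≤ absNorm v.asIdeal := by exact_mod_cast (by omega : 1 ≤ absNorm v.asIdeal)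
  rw [primeTerm, primeTerm, ← Real.rpow_natCast, ← Real.rpow_mul h0]
  exact Real.rpow_le_rpow_of_exponent_le h1 (by push_cast; linarith)

lemma summable_primeTerm {s : ℝ} (hs : 1 < s) : Summable (primeTerm K s) := by
  have hinj : Function.Injective (fun v : HeightOneSpectrum (𝓞 K) => v.asIdeal) :=
    fun v w h => HeightOneSpectrum.ext h
  exact (summable_absNorm_rpow K hs).comp_injective hinj

/-- `∑_v N(v)^{-s}` -/
noncomputable def primeZetaSum (s : ℝ) : ℝ := ∑' v : HeightOneSpectrum (𝓞 K), primeTerm K s v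

lemma primeZetaSum_nonneg (s : ℝ) : 0 ≤ primeZetaSum K s :=
  tsum_nonneg fun v => (primeTerm_pos K s v).le

/-- Euler product of the Dedekind zeta function. -/
lemma hasProd_idealZeta {s : ℝ} (hs : 1 < s) :
    HasProd (fun v : HeightOneSpectrum (𝓞 K) => (1 - primeTerm K s v)⁻¹) (idealZeta K s) := by
  have hs0 : s ≠ 0 := by linarith
  have h := eulerProduct_hasProd_ideal (normPowHom K s hs0) (by
    refine (summable_absNorm_rpow K hs).congr fun I => ?_
    rw [normPowHom_apply, Real.norm_of_nonneg (Real.rpow_nonneg (Nat.cast_nonneg _) _)])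
  exact h

lemma one_le_factor {s : ℝ} (hs : 1 ≤ s) (v : HeightOneSpectrum (𝓞 K)) :
    1 ≤ (1 - primeTerm K s v)⁻¹ := by
  have h1 := primeTerm_le_half K hs v
  have h0 := primeTerm_pos K s v
  rw [one_le_inv₀ (by linarith)]
  linarith

lemma exp_primeZetaSum_le {s : ℝ} (hs : 1 < s) :
    Real.exp (primeZetaSum K s) ≤ idealZeta K s := by
  have hsum := (summable_primeTerm K hs).hasSum
  have ht : Tendsto (fun T : Finset (HeightOneSpectrum (𝓞 K)) =>
      Real.exp (∑ v ∈ T, primeTerm K s v)) atTop (𝓝 (Real.exp (primeZetaSum K s))) :=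
    (Real.continuous_exp.tendsto _).comp hsum
  refine le_of_tendsto' ht fun T => ?_
  rw [Real.exp_sum]
  refine le_trans ?_ (finset_prod_le_of_hasProd (hasProd_idealZeta K hs)
    (one_le_factor K hs.le) T)
  refine Finset.prod_le_prod (fun _ _ => (Real.exp_pos _).le) fun v _ => ?_
  exact one_sub_inv_ge_exp (primeTerm_pos K s v).le
    (lt_of_le_of_lt (primeTerm_le_half K hs.le v) (by norm_num))

lemma idealZeta_le_exp {s : ℝ} (hs : 1 < s) :
    idealZeta K s ≤ Real.exp (primeZetaSum K s + 2 * primeZetaSum K 2) := by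
  have hP := hasProd_idealZeta K hs
  refine le_of_tendsto' hP fun T => ?_
  have h1 : ∏ v ∈ T, (1 - primeTerm K s v)⁻¹ ≤
      ∏ v ∈ T, Real.exp (primeTerm K s v + 2 * primeTerm K s v ^ 2) := by
    refine Finset.prod_le_prod (fun v _ => ?_) fun v _ => ?_
    · exact zero_le_one.trans (one_le_factor K hs.le v)
    · exact one_sub_inv_le_exp (primeTerm_pos K s v).le (primeTerm_le_half K hs.le v)
  refine h1.trans ?_
  rw [← Real.exp_sum, Real.exp_le_exp, Finset.sum_add_distrib, ← Finset.mul_sum]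
  have h2 : ∑ v ∈ T, primeTerm K s v ≤ primeZetaSum K s :=
    (summable_primeTerm K hs).sum_le_tsum T (fun v _ => (primeTerm_pos K s v).le)
  have h3 : ∑ v ∈ T, primeTerm K s v ^ 2 ≤ primeZetaSum K 2 := by
    calc ∑ v ∈ T, primeTerm K s v ^ 2 ≤ ∑ v ∈ T, primeTerm K 2 v :=
          Finset.sum_le_sum fun v _ => primeTerm_sq_le K hs.le v
      _ ≤ primeZetaSum K 2 :=
        (summable_primeTerm K (by norm_num : (1 : ℝ) < 2)).sum_le_tsum T
          (fun v _ => (primeTerm_pos K 2 v).le)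
  linarith

end Fermat.Agent.H62
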