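import Fermat.Agent.H62.ClassL

/-!
# Claim Z (S14 / C4e): primes outside a thin set on which a class group character is nontrivial

Analytic assembly.  `hC4c` (bounded differences of class zeta functions) and the splitting input
(C4d) enter as hypotheses.
-/

open Filter Topology IsDedekindDomain NumberField Ideal
open scoped nonZeroDivisors

namespace Fermat.Agent.H62

lemma prod_one_sub_stdAddChar (p : ℕ) [NeZero p] (x : ℂ) :
    ∏ k : ZMod p, (1 - ZMod.stdAddChar k * x) = 1 - x ^ p := by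
  classical
  have hζ : IsPrimitiveRoot (Complex.exp (2 * Real.pi * Complex.I / p)) p :=
    Complex.isPrimitiveRoot_exp p (NeZero.ne p)
  have h := hζ.pow_sub_pow_eq_prod_sub_mul (1 : ℂ) x (Nat.pos_of_ne_zero (NeZero.ne p))
  rw [one_pow] at h
  rw [h]
  have himg : (Finset.univ : Finset (ZMod p)).image (fun k => ZMod.stdAddChar k) =
      Polynomial.nthRootsFinset p (1 : ℂ) := by
    apply Finset.eq_of_subset_of_card_le
    · intro μ hμ
      obtain ⟨k, -, rfl⟩ := Finset.mem_image.mp hμ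
      rw [Polynomial.mem_nthRootsFinset (Nat.pos_of_ne_zero (NeZero.ne p))]
      rw [← AddChar.map_nsmul_eq_pow]
      simp
    · rw [hζ.card_nthRootsFinset, Finset.card_image_of_injective _ ZMod.injective_stdAddChar]
      simp
  rw [← himg, Finset.prod_image (fun a _ b _ h => ZMod.injective_stdAddChar h)]

lemma prod_one_sub_stdAddChar_mul (p : ℕ) [Fact p.Prime] (a : ZMod p) (x : ℂ) :
    ∏ j : ZMod p, (1 - ZMod.stdAddChar (j * a) * x) =
      if a = 0 then (1 - x) ^ p else 1 - x ^ p := by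
  split_ifs with ha
  · subst ha
    simp
  · rw [← prod_one_sub_stdAddChar p x]
    exact Fintype.prod_equiv (Equiv.mulRight₀ a ha) _ _ (fun j => rfl)

variable (K : Type*) [Field K] [NumberField K]
variable (p : ℕ) [Fact p.Prime]

/-- the characters `χ_j = e(j φ / p)` of the class group attached to `φ`. -/
noncomputable def phiChar (φ : ClassGroup (𝓞 K) →* Multiplicative (ZMod p)) (j : ZMod p) :
    ClassGroup (𝓞 K) →* ℂ :=
  ((ZMod.stdAddChar (N := p)).mulShift j).toMonoidHom.comp φ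

omit [NumberField K] in
lemma phiChar_apply (φ : ClassGroup (𝓞 K) →* Multiplicative (ZMod p)) (j : ZMod p)
    (C : ClassGroup (𝓞 K)) :
    phiChar K p φ j C = ZMod.stdAddChar (j * Multiplicative.toAdd (φ C)) := rfl

omit [NumberField K] in
lemma phiChar_zero (φ : ClassGroup (𝓞 K) →* Multiplicative (ZMod p)) :
    phiChar K p φ 0 = 1 := by
  ext C
  simp [phiChar_apply]

omit [NumberField K] in
lemma phiChar_ne_one (φ : ClassGroup (𝓞 K) →* Multiplicative (ZMod p)) (hφ : φ ≠ 1)
    {j : ZMod p} (hj : j ≠ 0) : phiChar K p φ j ≠ 1 := by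
  intro h
  apply hφ
  ext C
  have hC : phiChar K p φ j C = 1 := by rw [h]; rfl
  rw [phiChar_apply, ← AddChar.map_zero_eq_one (ZMod.stdAddChar (N := p))] at hC
  have := ZMod.injective_stdAddChar hC
  rcases mul_eq_zero.mp this with h0 | h0
  · exact absurd h0 hj
  · simpa using h0

open scoped Classical

/-- the product `F(s) = ∏_j L(s, χ_j)` -/
noncomputable def phiProd (φ : ClassGroup (𝓞 K) →* Multiplicative (ZMod p)) (s : ℝ) : ℂ :=
  ∏ j : ZMod p, classL K (phiChar K p φ j) s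

/-- local Euler factor of `phiProd` (a real number `≥ 1`) -/
noncomputable def localFactor (φ : ClassGroup (𝓞 K) →* Multiplicative (ZMod p)) (s : ℝ)
    (v : HeightOneSpectrum (𝓞 K)) : ℝ :=
  if φ (cls K v.asIdeal) = 1 then ((1 - primeTerm K s v) ^ p)⁻¹
  else (1 - primeTerm K s v ^ p)⁻¹

lemma hasProd_phiProd (φ : ClassGroup (𝓞 K) →* Multiplicative (ZMod p)) {s : ℝ} (hs : 1 < s) :
    HasProd (fun v : HeightOneSpectrum (𝓞 K) => ((localFactor K p φ s v : ℝ) : ℂ))
      (phiProd K p φ s) := by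
  have hs0 : s ≠ 0 := by linarith
  have h : ∀ j ∈ (Finset.univ : Finset (ZMod p)),
      HasProd (fun v : HeightOneSpectrum (𝓞 K) =>
        (1 - charPowHom K (phiChar K p φ j) s hs0 v.asIdeal)⁻¹)
        (classL K (phiChar K p φ j) s) := by
    intro j _
    exact eulerProduct_hasProd_ideal (charPowHom K (phiChar K p φ j) s hs0)
      (summable_classL_norm K _ hs)
  have h2 := hasProd_prod h
  rw [phiProd]
  convert h2 using 2 with v
  rw [Finset.prod_inv_distrib]
  simp only [charPowHom_apply, phiChar_apply]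
  rw [prod_one_sub_stdAddChar_mul p, localFactor, primeTerm]
  have hiff : φ (cls K v.asIdeal) = 1 ↔ Multiplicative.toAdd (φ (cls K v.asIdeal)) = 0 := by
    rw [← toAdd_one]; exact Multiplicative.toAdd.injective.eq_iff.symm
  by_cases hv : φ (cls K v.asIdeal) = 1
  · rw [if_pos hv, if_pos (hiff.mp hv)]
    push_cast
    rfl
  · rw [if_neg hv, if_neg (fun h => hv (hiff.mpr h))]
    push_cast
    rfl

lemma one_le_localFactor (φ : ClassGroup (𝓞 K) →* Multiplicative (ZMod p)) {s : ℝ} (hs : 1 ≤ s)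
    (v : HeightOneSpectrum (𝓞 K)) : 1 ≤ localFactor K p φ s v := by
  have h0 := primeTerm_pos K s v
  have h1 := primeTerm_le_half K hs v
  have hp : p ≠ 0 := (Fact.out : p.Prime).ne_zero
  rw [localFactor]
  split_ifs
  · rw [one_le_inv₀ (pow_pos (by linarith) p)]
    exact pow_le_one₀ (by linarith) (by linarith)
  · have hx : primeTerm K s v ^ p < 1 := pow_lt_one₀ h0.le (by linarith) hp
    have hx0 : 0 < primeTerm K s v ^ p := pow_pos h0 p
    rw [one_le_inv₀ (by linarith)]
    linarith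

lemma exp_le_localFactor (φ : ClassGroup (𝓞 K) →* Multiplicative (ZMod p)) {s : ℝ} (hs : 1 ≤ s)
    (v : HeightOneSpectrum (𝓞 K)) (hv : φ (cls K v.asIdeal) = 1) :
    Real.exp (p * primeTerm K s v) ≤ localFactor K p φ s v := by
  have h0 := primeTerm_pos K s v
  have h1 := primeTerm_le_half K hs v
  rw [localFactor, if_pos hv, ← inv_pow, mul_comm, Real.exp_mul, Real.rpow_natCast]
  exact pow_le_pow_left₀ (Real.exp_pos _).le (one_sub_inv_ge_exp h0.le (by linarith)) p

/-- the part of the prime sum over primes in the kernel of `φ` -/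
noncomputable def kerTerm (φ : ClassGroup (𝓞 K) →* Multiplicative (ZMod p)) (s : ℝ)
    (v : HeightOneSpectrum (𝓞 K)) : ℝ :=
  if φ (cls K v.asIdeal) = 1 then primeTerm K s v else 0

lemma kerTerm_nonneg (φ : ClassGroup (𝓞 K) →* Multiplicative (ZMod p)) (s : ℝ)
    (v : HeightOneSpectrum (𝓞 K)) : 0 ≤ kerTerm K p φ s v := by
  rw [kerTerm]; split_ifs
  · exact (primeTerm_pos K s v).le
  · exact le_rfl

lemma kerTerm_le (φ : ClassGroup (𝓞 K) →* Multiplicative (ZMod p)) (s : ℝ)
    (v : HeightOneSpectrum (𝓞 K)) : kerTerm K p φ s v ≤ primeTerm K s v := by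
  rw [kerTerm]; split_ifs
  · exact le_rfl
  · exact (primeTerm_pos K s v).le

lemma summable_kerTerm (φ : ClassGroup (𝓞 K) →* Multiplicative (ZMod p)) {s : ℝ} (hs : 1 < s) :
    Summable (kerTerm K p φ s) :=
  Summable.of_nonneg_of_le (kerTerm_nonneg K p φ s) (kerTerm_le K p φ s) (summable_primeTerm K hs)

lemma exp_le_norm_phiProd (φ : ClassGroup (𝓞 K) →* Multiplicative (ZMod p)) {s : ℝ}
    (hs : 1 < s) :
    Real.exp (p * ∑' v, kerTerm K p φ s v) ≤ ‖phiProd K p φ s‖ := by
  have hP' : HasProd (fun v => localFactor K p φ s v) ‖phiProd K p φ s‖ := by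
    have := (hasProd_phiProd K p φ hs).norm
    simp only [Complex.norm_real, Real.norm_eq_abs] at this
    have e : (fun v => |localFactor K p φ s v|) = fun v => localFactor K p φ s v :=
      funext fun v => abs_of_nonneg (zero_le_one.trans (one_le_localFactor K p φ hs.le v))
    rwa [e] at this
  have hsum : Tendsto (fun T : Finset (HeightOneSpectrum (𝓞 K)) => ∑ v ∈ T, kerTerm K p φ s v)
      atTop (𝓝 (∑' v, kerTerm K p φ s v)) := (summable_kerTerm K p φ hs).hasSum
  have ht : Tendsto (fun T : Finset (HeightOneSpectrum (𝓞 K)) =>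
      Real.exp (p * ∑ v ∈ T, kerTerm K p φ s v)) atTop
      (𝓝 (Real.exp (p * ∑' v, kerTerm K p φ s v))) :=
    (Real.continuous_exp.tendsto _).comp (hsum.const_mul (p : ℝ))
  refine le_of_tendsto' ht fun T => ?_
  rw [Finset.mul_sum, Real.exp_sum]
  refine le_trans ?_ (finset_prod_le_of_hasProd hP' (one_le_localFactor K p φ hs.le) T)
  refine Finset.prod_le_prod (fun _ _ => (Real.exp_pos _).le) fun v _ => ?_
  by_cases hv : φ (cls K v.asIdeal) = 1
  · rw [kerTerm, if_pos hv]
    exact exp_le_localFactor K p φ hs.le v hv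
  · rw [kerTerm, if_neg hv, mul_zero, Real.exp_zero]
    exact one_le_localFactor K p φ hs.le v

lemma classL_one {s : ℝ} : classL K (1 : ClassGroup (𝓞 K) →* ℂ) s = ((idealZeta K s : ℝ) : ℂ) := by
  rw [classL, idealZeta, Complex.ofReal_tsum]
  simp

lemma norm_phiProd_le (φ : ClassGroup (𝓞 K) →* Multiplicative (ZMod p)) {s : ℝ} (hs : 1 < s)
    (B : ZMod p → ℝ) (hB : ∀ j : ZMod p, j ≠ 0 → ‖classL K (phiChar K p φ j) s‖ ≤ B j) :
    ‖phiProd K p φ s‖ ≤ idealZeta K s * ∏ j ∈ (Finset.univ : Finset (ZMod p)).erase 0, B j := by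
  rw [phiProd, norm_prod, ← Finset.mul_prod_erase _ _ (Finset.mem_univ (0 : ZMod p))]
  have h0 : ‖classL K (phiChar K p φ 0) s‖ = idealZeta K s := by
    rw [phiChar_zero, classL_one, Complex.norm_real,
      Real.norm_of_nonneg (idealZeta_pos K hs).le]
  rw [h0]
  refine mul_le_mul_of_nonneg_left ?_ (idealZeta_pos K hs).le
  refine Finset.prod_le_prod (fun _ _ => norm_nonneg _) fun j hj => ?_
  exact hB j (Finset.ne_of_mem_erase hj)


lemma primeTerm_one (v : HeightOneSpectrum (𝓞 K)) :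
    primeTerm K 1 v = (absNorm v.asIdeal : ℝ)⁻¹ := by
  rw [primeTerm, Real.rpow_neg_one]

lemma tsum_subtype_primeTerm_le (T : Set (HeightOneSpectrum (𝓞 K)))
    (hT : Summable (fun v : T => (absNorm v.1.asIdeal : ℝ)⁻¹)) {s : ℝ} (hs : 1 < s) :
    ∑' v : T, primeTerm K s v ≤ ∑' v : T, (absNorm v.1.asIdeal : ℝ)⁻¹ := by
  refine Summable.tsum_le_tsum (fun v => ?_) ((summable_primeTerm K hs).subtype T) hT
  rw [← primeTerm_one]
  exact primeTerm_anti K hs.le v.1

/-- under the negation of Claim Z, the full prime sum is dominated -/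
lemma primeZetaSum_le_of_forall (φ : ClassGroup (𝓞 K) →* Multiplicative (ZMod p))
    (S T : Set (HeightOneSpectrum (𝓞 K)))
    (hcon : ∀ v : HeightOneSpectrum (𝓞 K), v ∉ S → v ∉ T → φ (cls K v.asIdeal) = 1)
    {s : ℝ} (hs : 1 < s) :
    primeZetaSum K s ≤ (∑' v : S, primeTerm K s v) + (∑' v : T, primeTerm K s v) +
      ∑' v, kerTerm K p φ s v := by
  have hsum := summable_primeTerm K hs
  have hS : Summable (S.indicator (primeTerm K s)) := hsum.indicator S
  have hT : Summable (T.indicator (primeTerm K s)) := hsum.indicator T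
  have hk := summable_kerTerm K p φ hs
  rw [tsum_subtype S (primeTerm K s), tsum_subtype T (primeTerm K s), ← hS.tsum_add hT,
    ← (hS.add hT).tsum_add hk, primeZetaSum]
  refine hsum.tsum_le_tsum (fun v => ?_) ((hS.add hT).add hk)
  have hpos := (primeTerm_pos K s v).le
  by_cases hvS : v ∈ S
  · have h1 : S.indicator (primeTerm K s) v = primeTerm K s v := Set.indicator_of_mem hvS _
    have h2 : 0 ≤ T.indicator (primeTerm K s) v :=
      Set.indicator_nonneg (fun v _ => (primeTerm_pos K s v).le) v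
    have h3 := kerTerm_nonneg K p φ s v
    linarith
  by_cases hvT : v ∈ T
  · have h1 : T.indicator (primeTerm K s) v = primeTerm K s v := Set.indicator_of_mem hvT _
    have h2 : 0 ≤ S.indicator (primeTerm K s) v :=
      Set.indicator_nonneg (fun v _ => (primeTerm_pos K s v).le) v
    have h3 := kerTerm_nonneg K p φ s v
    linarith
  · have h1 : kerTerm K p φ s v = primeTerm K s v := by
      rw [kerTerm, if_pos (hcon v hvS hvT)]
    have h2 : 0 ≤ S.indicator (primeTerm K s) v :=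
      Set.indicator_nonneg (fun v _ => (primeTerm_pos K s v).le) v
    have h3 : 0 ≤ T.indicator (primeTerm K s) v :=
      Set.indicator_nonneg (fun v _ => (primeTerm_pos K s v).le) v
    linarith

lemma claimZ_key_ineq (hp2 : 2 ≤ p) (φ : ClassGroup (𝓞 K) →* Multiplicative (ZMod p))
    (S T : Set (HeightOneSpectrum (𝓞 K)))
    (hcon : ∀ v : HeightOneSpectrum (𝓞 K), v ∉ S → v ∉ T → φ (cls K v.asIdeal) = 1)
    (hT : Summable (fun v : T => (absNorm v.1.asIdeal : ℝ)⁻¹)) {s : ℝ} (hs : 1 < s)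
    (A : ℝ) (hA : Real.exp (p * ∑' v : S, primeTerm K s v) ≤ A / (s - 1))
    (B : ZMod p → ℝ) (hB : ∀ j : ZMod p, j ≠ 0 → ‖classL K (phiChar K p φ j) s‖ ≤ B j)
    (hz1 : dedekindZeta_residue K / 2 ≤ (s - 1) * idealZeta K s)
    (hz2 : (s - 1) * idealZeta K s ≤ 2 * dedekindZeta_residue K) :
    (dedekindZeta_residue K / 2 * Real.exp (-(2 * primeZetaSum K 2))) ^ p ≤
      (A * Real.exp (p * ∑' v : T, (absNorm v.1.asIdeal : ℝ)⁻¹) * (2 * dedekindZeta_residue K) *
        ∏ j ∈ (Finset.univ : Finset (ZMod p)).erase 0, B j) * (s - 1) ^ (p - 2) := by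
  set z := idealZeta K s with hz
  set PS := primeZetaSum K s with hPS
  set sumS := ∑' v : S, primeTerm K s v with hsumS'
  set sumT := ∑' v : T, primeTerm K s v with hsumT'
  set Ak := ∑' v, kerTerm K p φ s v with hAk
  set C1 := 2 * primeZetaSum K 2 with hC1
  set CT := ∑' v : T, (absNorm v.1.asIdeal : ℝ)⁻¹ with hCT
  set D := ∏ j ∈ (Finset.univ : Finset (ZMod p)).erase 0, B j with hD
  set r := dedekindZeta_residue K with hr
  set t := s - 1 with htdef
  have ht : 0 < t := by simp only [htdef]; linarith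
  have hr0 : 0 < r := dedekindZeta_residue_pos K
  have hz0 : 0 < z := idealZeta_pos K hs
  have h_a : z ≤ Real.exp (PS + C1) := idealZeta_le_exp K hs
  have h_c : PS ≤ sumS + sumT + Ak := primeZetaSum_le_of_forall K p φ S T hcon hs
  have h_d : Real.exp (p * Ak) ≤ z * D :=
    (exp_le_norm_phiProd K p φ hs).trans (norm_phiProd_le K p φ hs B hB)
  have h_f : sumT ≤ CT := tsum_subtype_primeTerm_le K T hT hs
  have hA0 : 0 < A := by
    have h1 : 0 < A / t := (Real.exp_pos _).trans_le hA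
    exact (div_pos_iff_of_pos_right ht).mp h1
  have hD0 : 0 < D := by
    have h1 : 0 < z * D := (Real.exp_pos _).trans_le h_d
    exact (pos_iff_pos_of_mul_pos h1).mp hz0
  have hp0 : (0 : ℝ) ≤ p := Nat.cast_nonneg p
  -- step 1
  have h1 : r / 2 * Real.exp (-C1) ≤ t * Real.exp PS := by
    have e1 : Real.exp (PS + C1) * Real.exp (-C1) = Real.exp PS := by
      rw [← Real.exp_add]; congr 1; ring
    calc r / 2 * Real.exp (-C1) ≤ (t * z) * Real.exp (-C1) :=
          mul_le_mul_of_nonneg_right hz1 (Real.exp_pos _).le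
      _ ≤ (t * Real.exp (PS + C1)) * Real.exp (-C1) :=
          mul_le_mul_of_nonneg_right (mul_le_mul_of_nonneg_left h_a ht.le) (Real.exp_pos _).le
      _ = t * Real.exp PS := by rw [mul_assoc, e1]
  have h2 : (r / 2 * Real.exp (-C1)) ^ p ≤ (t * Real.exp PS) ^ p :=
    pow_le_pow_left₀ (by positivity) h1 p
  have h3 : (t * Real.exp PS) ^ p = t ^ p * Real.exp (p * PS) := by
    rw [mul_pow, ← Real.exp_nat_mul]
  have h4 : Real.exp (p * PS) ≤ Real.exp (p * sumS) * Real.exp (p * sumT) * Real.exp (p * Ak) := by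
    rw [← Real.exp_add, ← Real.exp_add, Real.exp_le_exp, ← mul_add, ← mul_add]
    exact mul_le_mul_of_nonneg_left h_c hp0
  have h5 : Real.exp (p * sumT) ≤ Real.exp (p * CT) :=
    Real.exp_le_exp.mpr (mul_le_mul_of_nonneg_left h_f hp0)
  have h6 : Real.exp (p * sumS) * Real.exp (p * sumT) * Real.exp (p * Ak) ≤
      (A / t) * Real.exp (p * CT) * (z * D) :=
    mul_le_mul (mul_le_mul hA h5 (Real.exp_pos _).le (div_pos hA0 ht).le) h_d
      (Real.exp_pos _).le (by positivity)
  have h7 : t ^ p = t ^ (p - 2) * t ^ 2 := by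
    rw [← pow_add]; congr 1; omega
  calc (r / 2 * Real.exp (-C1)) ^ p ≤ t ^ p * Real.exp (p * PS) := h3 ▸ h2
    _ ≤ t ^ p * ((A / t) * Real.exp (p * CT) * (z * D)) :=
        mul_le_mul_of_nonneg_left (h4.trans h6) (by positivity)
    _ = (A * Real.exp (p * CT) * (t * z) * D) * t ^ (p - 2) := by
        rw [h7]; field_simp
    _ ≤ (A * Real.exp (p * CT) * (2 * r) * D) * t ^ (p - 2) := by
        refine mul_le_mul_of_nonneg_right ?_ (by positivity)
        refine mul_le_mul_of_nonneg_right ?_ hD0.le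
        exact mul_le_mul_of_nonneg_left hz2 (by positivity)

/-- **Claim Z, core form.**  Let `φ` be a nontrivial character of the class group with values in
`ℤ/p`, `p ≥ 3`.  Let `S` be a set of primes of "density at most `1/p`" in the sense `hS`, and `T` a
negligible set of primes.  Then, given the boundedness `hC4c` of differences of partial zeta
functions, some prime `v ∉ S ∪ T` has `φ([v]) ≠ 1`. -/
theorem exists_prime_phi_ne_one_core (hp3 : 3 ≤ p)
    (φ : ClassGroup (𝓞 K) →* Multiplicative (ZMod p)) (hφ : φ ≠ 1)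
    (S T : Set (HeightOneSpectrum (𝓞 K)))
    (hS : ∃ A : ℝ, ∀ᶠ s : ℝ in 𝓝[>] 1,
      Real.exp (p * ∑' v : S, primeTerm K s v) ≤ A / (s - 1))
    (hT : Summable (fun v : T => (absNorm v.1.asIdeal : ℝ)⁻¹))
    (hC4c : ∀ C C' : ClassGroup (𝓞 K), ∃ B : ℝ, ∀ s : ℝ, 1 < s → s ≤ 2 →
      |classZeta K C s - classZeta K C' s| ≤ B) :
    ∃ v : HeightOneSpectrum (𝓞 K), v ∉ S ∧ v ∉ T ∧ φ (cls K v.asIdeal) ≠ 1 := by
  by_contra hcon
  push Not at hcon
  obtain ⟨A, hA⟩ := hS
  have hBex : ∀ j : ZMod p, ∃ B : ℝ, j ≠ 0 → ∀ s : ℝ, 1 < s → s ≤ 2 →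
      ‖classL K (phiChar K p φ j) s‖ ≤ B := by
    intro j
    by_cases hj : j = 0
    · exact ⟨0, fun h => absurd hj h⟩
    · obtain ⟨B, hB⟩ := classL_bounded K _ (phiChar_ne_one K p φ hφ hj) hC4c
      exact ⟨B, fun _ => hB⟩
  choose B hB using hBex
  have hev2 : ∀ᶠ s : ℝ in 𝓝[>] 1, s ≤ 2 :=
    mem_nhdsWithin_of_mem_nhds (Iic_mem_nhds (by norm_num))
  have hev1 : ∀ᶠ s : ℝ in 𝓝[>] 1, 1 < s := self_mem_nhdsWithin
  set Dtot := A * Real.exp (p * ∑' v : T, (absNorm v.1.asIdeal : ℝ)⁻¹) *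
    (2 * dedekindZeta_residue K) * ∏ j ∈ (Finset.univ : Finset (ZMod p)).erase 0, B j with hDtot
  set c := (dedekindZeta_residue K / 2 * Real.exp (-(2 * primeZetaSum K 2))) ^ p with hc
  have key : ∀ᶠ s : ℝ in 𝓝[>] 1, c ≤ Dtot * (s - 1) ^ (p - 2) := by
    filter_upwards [hA, eventually_idealZeta_bounds K, hev1, hev2] with s h1 h2 h3 h4
    exact claimZ_key_ineq K p (by omega) φ S T hcon hT h3 A h1 B
      (fun j hj => hB j hj s h3 h4) h2.1 h2.2
  have hlim : Tendsto (fun s : ℝ => Dtot * (s - 1) ^ (p - 2)) (𝓝[>] 1) (𝓝 0) := by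
    have hcont : Continuous (fun s : ℝ => Dtot * (s - 1) ^ (p - 2)) := by fun_prop
    have h1 := hcont.tendsto 1
    have h2 : Dtot * ((1 : ℝ) - 1) ^ (p - 2) = 0 := by
      rw [sub_self, zero_pow (by omega), mul_zero]
    rw [h2] at h1
    exact h1.mono_left nhdsWithin_le_nhds
  have hpos : 0 < c := by
    have := dedekindZeta_residue_pos K
    positivity
  obtain ⟨s, h1, h2⟩ := (key.and (hlim.eventually (gt_mem_nhds hpos))).exists
  linarith

omit [Fact p.Prime] in
/-- The splitting input (C4d) implies the density hypothesis `hS` of the core form. -/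
lemma density_of_split (M : Type*) [Field M] [NumberField M]
    (S : Set (HeightOneSpectrum (𝓞 K)))
    (e : S × Fin p → HeightOneSpectrum (𝓞 M)) (he : Function.Injective e)
    (hN : ∀ x, absNorm (e x).asIdeal = absNorm x.1.1.asIdeal) :
    ∃ A : ℝ, ∀ᶠ s : ℝ in 𝓝[>] 1,
      Real.exp (p * ∑' v : S, primeTerm K s v) ≤ A / (s - 1) := by
  refine ⟨2 * dedekindZeta_residue M, ?_⟩
  filter_upwards [eventually_idealZeta_bounds M, self_mem_nhdsWithin] with s h1 hs
  have hs' : (1 : ℝ) < s := hs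
  have ht : 0 < s - 1 := by linarith
  have hsumM := summable_primeTerm M hs'
  have hcomp : Summable (fun y : S × Fin p => primeTerm M s (e y)) := hsumM.comp_injective he
  have heq : ∀ y : S × Fin p, primeTerm M s (e y) = primeTerm K s y.1.1 := by
    intro y
    rw [primeTerm, primeTerm, hN]
  have h2 : ∑' y : S × Fin p, primeTerm M s (e y) = p * ∑' v : S, primeTerm K s v := by
    rw [hcomp.tsum_prod' (fun b => Summable.of_finite)]
    simp only [heq, tsum_const, Nat.card_eq_fintype_card, Fintype.card_fin, nsmul_eq_mul]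
    rw [tsum_mul_left]
  have h3 : ∑' y : S × Fin p, primeTerm M s (e y) ≤ primeZetaSum M s :=
    tsum_comp_le_tsum_of_inj hsumM (fun w => (primeTerm_pos M s w).le) he
  rw [← h2]
  calc Real.exp (∑' y : S × Fin p, primeTerm M s (e y))
      ≤ Real.exp (primeZetaSum M s) := Real.exp_le_exp.mpr h3
    _ ≤ idealZeta M s := exp_primeZetaSum_le M hs'
    _ ≤ 2 * dedekindZeta_residue M / (s - 1) := by
        rw [le_div_iff₀ ht, mul_comm]
        exact h1.2

/-- **Claim Z (S14 / C4e)**, with the splitting input `e` (C4d) and `hC4c` as hypotheses. -/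
theorem exists_prime_phi_ne_one (M : Type*) [Field M] [NumberField M] (hp3 : 3 ≤ p)
    (φ : ClassGroup (𝓞 K) →* Multiplicative (ZMod p)) (hφ : φ ≠ 1)
    (S : Set (HeightOneSpectrum (𝓞 K)))
    (e : S × Fin p → HeightOneSpectrum (𝓞 M)) (he : Function.Injective e)
    (hN : ∀ x, absNorm (e x).asIdeal = absNorm x.1.1.asIdeal)
    (T : Set (HeightOneSpectrum (𝓞 K)))
    (hT : Summable (fun v : T => (absNorm v.1.asIdeal : ℝ)⁻¹))
    (hC4c : ∀ C C' : ClassGroup (𝓞 K), ∃ B : ℝ, ∀ s : ℝ, 1 < s → s ≤ 2 →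
      |(∑' I : {I : (Ideal (𝓞 K))⁰ // ClassGroup.mk0 I = C},
          (absNorm (I.1 : Ideal (𝓞 K)) : ℝ) ^ (-s)) -
        ∑' I : {I : (Ideal (𝓞 K))⁰ // ClassGroup.mk0 I = C'},
          (absNorm (I.1 : Ideal (𝓞 K)) : ℝ) ^ (-s)| ≤ B) :
    ∃ v : HeightOneSpectrum (𝓞 K), v ∉ S ∧ v ∉ T ∧
      φ (ClassGroup.mk0 ⟨v.asIdeal, mem_nonZeroDivisors_iff_ne_zero.mpr v.ne_bot⟩) ≠ 1 := by
  obtain ⟨v, h1, h2, h3⟩ := exists_prime_phi_ne_one_core K p hp3 φ hφ S T
    (density_of_split K p M S e he hN) hT hC4c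
  refine ⟨v, h1, h2, ?_⟩
  rwa [← cls_coe K ⟨v.asIdeal, mem_nonZeroDivisors_iff_ne_zero.mpr v.ne_bot⟩]

end Fermat.Agent.H62
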