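import Fermat.Agent.H62.IdealZeta

/-!
# Class zeta functions and class group L-functions (real argument)

S14 / C4b-C4e.  `hC4c` (bounded differences of class zeta functions) enters as a hypothesis.
-/

open Filter Topology IsDedekindDomain NumberField Ideal
open scoped nonZeroDivisors

namespace Fermat.Agent.H62

variable (K : Type*) [Field K] [NumberField K]

/-! ### Class zeta functions and class group `L`-functions -/

open scoped Classical

/-- partial zeta function of an ideal class (this is the shape used in hypothesis `hC4c`). -/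
noncomputable def classZeta (C : ClassGroup (𝓞 K)) (s : ℝ) : ℝ :=
  ∑' I : {I : (Ideal (𝓞 K))⁰ // ClassGroup.mk0 I = C}, (absNorm (I.1 : Ideal (𝓞 K)) : ℝ) ^ (-s)

/-- the `L`-function of a class group character (real argument) -/
noncomputable def classL (χ : ClassGroup (𝓞 K) →* ℂ) (s : ℝ) : ℂ :=
  ∑' I : Ideal (𝓞 K), χ (cls K I) * (((absNorm I : ℝ) ^ (-s) : ℝ) : ℂ)

lemma norm_char_eq_one (χ : ClassGroup (𝓞 K) →* ℂ) (C : ClassGroup (𝓞 K)) : ‖χ C‖ = 1 := by
  have h : χ C ^ Fintype.card (ClassGroup (𝓞 K)) = 1 := by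
    rw [← map_pow, pow_card_eq_one, map_one]
  exact Complex.norm_eq_one_of_pow_eq_one h Fintype.card_ne_zero

lemma norm_classL_term (χ : ClassGroup (𝓞 K) →* ℂ) (s : ℝ) (I : Ideal (𝓞 K)) :
    ‖χ (cls K I) * (((absNorm I : ℝ) ^ (-s) : ℝ) : ℂ)‖ = (absNorm I : ℝ) ^ (-s) := by
  rw [norm_mul, norm_char_eq_one, one_mul, Complex.norm_real,
    Real.norm_of_nonneg (Real.rpow_nonneg (Nat.cast_nonneg _) _)]

lemma summable_classL_norm (χ : ClassGroup (𝓞 K) →* ℂ) {s : ℝ} (hs : 1 < s) :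
    Summable (fun I : Ideal (𝓞 K) => ‖χ (cls K I) * (((absNorm I : ℝ) ^ (-s) : ℝ) : ℂ)‖) := by
  simp only [norm_classL_term]
  exact summable_absNorm_rpow K hs

/-- the embedding of the ideals of class `C` into all ideals -/
def classIncl (C : ClassGroup (𝓞 K)) :
    {I : (Ideal (𝓞 K))⁰ // ClassGroup.mk0 I = C} → Ideal (𝓞 K) := fun I => I.1.1

lemma classIncl_injective (C : ClassGroup (𝓞 K)) : Function.Injective (classIncl K C) :=
  fun _ _ h => Subtype.ext (Subtype.ext h)

lemma classZeta_eq_tsum (C : ClassGroup (𝓞 K)) (s : ℝ) (hs : s ≠ 0) :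
    classZeta K C s =
      ∑' I : Ideal (𝓞 K), if cls K I = C then (absNorm I : ℝ) ^ (-s) else 0 := by
  have hsupp : Function.support
      (fun I : Ideal (𝓞 K) => if cls K I = C then (absNorm I : ℝ) ^ (-s) else 0) ⊆
      Set.range (classIncl K C) := by
    intro I hI
    rw [Function.mem_support] at hI
    have hI0 : I ≠ ⊥ := by
      rintro rfl
      apply hI
      simp [Real.zero_rpow (neg_ne_zero.mpr hs)]
    have hC : cls K I = C := by
      by_contra h
      exact hI (if_neg h)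
    refine ⟨⟨⟨I, mem_nonZeroDivisors_iff_ne_zero.mpr hI0⟩, ?_⟩, rfl⟩
    rw [← hC, ← cls_coe]
  rw [← (classIncl_injective K C).tsum_eq hsupp, classZeta]
  refine tsum_congr fun I => ?_
  have : cls K (classIncl K C I) = C := by
    rw [classIncl, cls_coe, I.2]
  rw [if_pos this]
  rfl

lemma summable_classTerm (C : ClassGroup (𝓞 K)) {s : ℝ} (hs : 1 < s) :
    Summable (fun I : Ideal (𝓞 K) => if cls K I = C then (absNorm I : ℝ) ^ (-s) else 0) := by
  refine Summable.of_nonneg_of_le (fun I => ?_) (fun I => ?_) (summable_absNorm_rpow K hs)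
  · split_ifs
    · exact Real.rpow_nonneg (Nat.cast_nonneg _) _
    · exact le_rfl
  · split_ifs
    · exact le_rfl
    · exact Real.rpow_nonneg (Nat.cast_nonneg _) _

lemma classZeta_nonneg (C : ClassGroup (𝓞 K)) (s : ℝ) : 0 ≤ classZeta K C s :=
  tsum_nonneg fun _ => Real.rpow_nonneg (Nat.cast_nonneg _) _

/-- `L(s, χ) = ∑_C χ(C) ζ(s, C)`. -/
lemma classL_eq_sum (χ : ClassGroup (𝓞 K) →* ℂ) {s : ℝ} (hs : 1 < s) :
    classL K χ s = ∑ C : ClassGroup (𝓞 K), χ C * (classZeta K C s : ℂ) := by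
  have hs0 : s ≠ 0 := by linarith
  have hterm : ∀ I : Ideal (𝓞 K), χ (cls K I) * (((absNorm I : ℝ) ^ (-s) : ℝ) : ℂ) =
      ∑ C : ClassGroup (𝓞 K),
        χ C * (((if cls K I = C then (absNorm I : ℝ) ^ (-s) else 0 : ℝ)) : ℂ) := by
    intro I
    rw [Finset.sum_eq_single (cls K I)]
    · simp
    · intro C _ hC
      rw [if_neg (Ne.symm hC)]
      simp
    · intro h
      exact absurd (Finset.mem_univ _) h
  have hsumm : ∀ C ∈ (Finset.univ : Finset (ClassGroup (𝓞 K))),
      Summable (fun I : Ideal (𝓞 K) =>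
        χ C * (((if cls K I = C then (absNorm I : ℝ) ^ (-s) else 0 : ℝ)) : ℂ)) := by
    intro C _
    exact (Complex.summable_ofReal.mpr (summable_classTerm K C hs)).mul_left _
  rw [classL]
  simp_rw [hterm]
  rw [Summable.tsum_finsetSum hsumm]
  refine Finset.sum_congr rfl fun C _ => ?_
  rw [tsum_mul_left, classZeta_eq_tsum K C s hs0, Complex.ofReal_tsum]

/-- For a nontrivial character, `L(s, χ)` is bounded on `(1, 2]`, given `C4c`. -/
lemma classL_bounded (χ : ClassGroup (𝓞 K) →* ℂ) (hχ : χ ≠ 1)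
    (hC4c : ∀ C C' : ClassGroup (𝓞 K), ∃ B : ℝ, ∀ s : ℝ, 1 < s → s ≤ 2 →
      |classZeta K C s - classZeta K C' s| ≤ B) :
    ∃ B : ℝ, ∀ s : ℝ, 1 < s → s ≤ 2 → ‖classL K χ s‖ ≤ B := by
  choose B hB using fun C => hC4c C 1
  refine ⟨∑ C : ClassGroup (𝓞 K), B C, fun s hs hs2 => ?_⟩
  have h0 : ∑ C : ClassGroup (𝓞 K), χ C = 0 := sum_hom_units_eq_zero χ hχ
  have h1 : classL K χ s = ∑ C : ClassGroup (𝓞 K),
      χ C * ((classZeta K C s - classZeta K 1 s : ℝ) : ℂ) := by
    rw [classL_eq_sum K χ hs]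
    have : ∑ C : ClassGroup (𝓞 K), χ C * ((classZeta K C s - classZeta K 1 s : ℝ) : ℂ) =
        ∑ C : ClassGroup (𝓞 K), χ C * (classZeta K C s : ℂ) -
          (∑ C : ClassGroup (𝓞 K), χ C) * (classZeta K 1 s : ℂ) := by
      rw [Finset.sum_mul, ← Finset.sum_sub_distrib]
      refine Finset.sum_congr rfl fun C _ => ?_
      push_cast
      ring
    rw [this, h0, zero_mul, sub_zero]
  rw [h1]
  refine (norm_sum_le _ _).trans (Finset.sum_le_sum fun C _ => ?_)
  rw [norm_mul, norm_char_eq_one, one_mul, Complex.norm_real, Real.norm_eq_abs]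
  exact hB C s hs hs2

end Fermat.Agent.H62
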