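import Mathlib

/-!
# Euler products over the primes of a unique factorization monoid (e.g. ideals of a Dedekind domain)

S14 / C4a.  Mathlib only.
-/

namespace Fermat.Agent.H62

open Filter Topology

section Abstract

set_option linter.unusedSectionVars false

variable {α : Type*} [CommMonoidWithZero α] [UniqueFactorizationMonoid α] [Subsingleton αˣ]
  [Nontrivial α]

/-- Nonzero elements all of whose prime divisors lie in `s`. -/
def factoredSet (s : Set α) : Set α := {a | a ≠ 0 ∧ ∀ q, Prime q → q ∣ a → q ∈ s}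

lemma mem_factoredSet {s : Set α} {a : α} :
    a ∈ factoredSet s ↔ a ≠ 0 ∧ ∀ q, Prime q → q ∣ a → q ∈ s := Iff.rfl

lemma factoredSet_mono {s t : Set α} (h : s ⊆ t) : factoredSet s ⊆ factoredSet t :=
  fun _ ha => ⟨ha.1, fun q hq hqa => h (ha.2 q hq hqa)⟩

lemma factoredSet_empty : factoredSet (∅ : Set α) = {1} := by
  ext a
  simp only [mem_factoredSet, Set.mem_empty_iff_false, imp_false, Set.mem_singleton_iff]
  constructor
  · rintro ⟨h0, h⟩
    by_contra h1
    have hu : ¬ IsUnit a := fun hu => h1 (by
      obtain ⟨u, rfl⟩ := hu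
      rw [Subsingleton.elim u 1, Units.val_one])
    obtain ⟨q, hq, hqa⟩ := WfDvdMonoid.exists_irreducible_factor hu h0
    exact h q (UniqueFactorizationMonoid.irreducible_iff_prime.mp hq) hqa
  · rintro rfl
    exact ⟨one_ne_zero, fun q hq hq1 => hq.not_isUnit (isUnit_of_dvd_one hq1)⟩

lemma prime_eq_of_dvd {p q : α} (hp : Prime p) (hq : Prime q) (h : q ∣ p) : q = p := by
  have := (hq.dvd_prime_iff_associated hp).mp h
  exact associated_iff_eq.mp this

lemma pow_mul_mem_factoredSet {s : Set α} {p : α} (hp : Prime p) (k : ℕ) {a : α}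
    (ha : a ∈ factoredSet s) : p ^ k * a ∈ factoredSet (insert p s) := by
  refine ⟨mul_ne_zero (pow_ne_zero _ hp.ne_zero) ha.1, fun q hq hqd => ?_⟩
  rcases hq.dvd_or_dvd hqd with h | h
  · exact Set.mem_insert_iff.mpr (Or.inl (prime_eq_of_dvd hp hq (hq.dvd_of_dvd_pow h)))
  · exact Set.mem_insert_of_mem _ (ha.2 q hq h)

/-- The map `(k, a) ↦ p ^ k * a` from `ℕ × factoredSet s` to `factoredSet (insert p s)`. -/
def powMulMap {s : Set α} {p : α} (hp : Prime p) :
    ℕ × factoredSet s → factoredSet (insert p s) :=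
  fun x => ⟨p ^ x.1 * x.2.1, pow_mul_mem_factoredSet hp x.1 x.2.2⟩

lemma powMulMap_bijective {s : Set α} {p : α} (hp : Prime p) (hps : p ∉ s) :
    Function.Bijective (powMulMap (s := s) hp) := by
  have hnd : ∀ a : factoredSet s, ¬ p ∣ a.1 := fun a h => hps (a.2.2 p hp h)
  constructor
  · -- injectivity
    have key : ∀ (k l : ℕ) (a b : factoredSet s), k ≤ l → p ^ k * a.1 = p ^ l * b.1 →
        k = l ∧ a = b := by
      intro k l a b hkl h
      obtain ⟨d, rfl⟩ := Nat.exists_eq_add_of_le hkl
      rw [pow_add, mul_assoc] at h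
      have h' := mul_left_cancel₀ (pow_ne_zero k hp.ne_zero) h
      rcases Nat.eq_zero_or_pos d with rfl | hd
      · simp only [pow_zero, one_mul] at h'
        exact ⟨rfl, Subtype.ext h'⟩
      · exfalso
        apply hnd a
        rw [h']
        exact Dvd.dvd.mul_right (dvd_pow_self p hd.ne') _
    rintro ⟨k, a⟩ ⟨l, b⟩ h
    have h' : p ^ k * a.1 = p ^ l * b.1 := congrArg Subtype.val h
    rcases le_total k l with hkl | hkl
    · obtain ⟨rfl, rfl⟩ := key k l a b hkl h'
      rfl
    · obtain ⟨rfl, rfl⟩ := key l k b a hkl h'.symm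
      rfl
  · -- surjectivity
    rintro ⟨c, hc0, hc⟩
    obtain ⟨n, a, hna, rfl⟩ := WfDvdMonoid.max_power_factor hc0 hp.irreducible
    have ha0 : a ≠ 0 := right_ne_zero_of_mul hc0
    refine ⟨(n, ⟨a, ha0, fun q hq hqa => ?_⟩), rfl⟩
    have := hc q hq (Dvd.dvd.mul_left hqa _)
    rcases Set.mem_insert_iff.mp this with rfl | h
    · exact absurd hqa hna
    · exact h

variable {F : Type*} [NormedField F] [CompleteSpace F]

lemma norm_lt_one_of_summable (f : α →*₀ F) (hsum : Summable (fun a => ‖f a‖)) {q : α}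
    (hq : Prime q) : ‖f q‖ < 1 := by
  refine summable_geometric_iff_norm_lt_one.mp ?_
  have hinj : Function.Injective (fun n : ℕ => q ^ n) :=
    pow_injective_of_not_isUnit hq.not_isUnit hq.ne_zero
  have := hsum.of_norm.comp_injective hinj
  simpa [Function.comp_def] using this

/-- Finite Euler product = sum over `s`-factored elements. -/
lemma summable_and_hasSum_factoredSet (f : α →*₀ F) (hlt : ∀ q, Prime q → ‖f q‖ < 1)
    (s : Finset α) (hs : ∀ q ∈ s, Prime q) :
    Summable (fun a : factoredSet (s : Set α) => ‖f a‖) ∧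
      HasSum (fun a : factoredSet (s : Set α) => f a) (∏ q ∈ s, (1 - f q)⁻¹) := by
  classical
  induction s using Finset.induction with
  | empty =>
    rw [Finset.coe_empty, factoredSet_empty]
    simp only [Finset.prod_empty]
    refine ⟨(Set.finite_singleton (1 : α)).summable (fun a => ‖f a‖), ?_⟩
    exact (map_one f) ▸ hasSum_singleton (1 : α) (fun a => f a)
  | insert p s hp ih =>
    have hpp : Prime p := hs p (Finset.mem_insert_self _ _)
    have ih' := ih (fun q hq => hs q (Finset.mem_insert_of_mem hq))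
    have hps : p ∉ (s : Set α) := by simpa using hp
    have hcoe : ((insert p s : Finset α) : Set α) = insert p (s : Set α) := by simp
    rw [hcoe]
    obtain ⟨e, he⟩ : ∃ e : ℕ × factoredSet (s : Set α) ≃ factoredSet (insert p (s : Set α)),
        ∀ x, ((e x : factoredSet (insert p (s : Set α))) : α) = p ^ x.1 * x.2.1 :=
      ⟨Equiv.ofBijective _ (powMulMap_bijective (s := (s : Set α)) hpp hps), fun _ => rfl⟩
    have hg : Summable (fun n : ℕ => ‖f p ^ n‖) := by
      simp only [norm_pow]
      exact summable_geometric_of_lt_one (norm_nonneg _) (hlt p hpp)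
    have hfe : ∀ x : ℕ × factoredSet (s : Set α), f (e x : α) = f p ^ x.1 * f x.2 := by
      intro x
      rw [he, map_mul, map_pow]
    have hmulsum : Summable (fun x : ℕ × factoredSet (s : Set α) => ‖f p ^ x.1‖ * ‖f x.2‖) :=
      Summable.mul_of_nonneg (f := fun n : ℕ => ‖f p ^ n‖)
        (g := fun a : factoredSet (s : Set α) => ‖f a‖) hg ih'.1
        (fun _ => norm_nonneg _) (fun _ => norm_nonneg _)
    have hmulsum' : Summable (fun x : ℕ × factoredSet (s : Set α) => f p ^ x.1 * f x.2) :=
      Summable.of_norm (Summable.of_nonneg_of_le (fun _ => norm_nonneg _)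
        (fun _ => norm_mul_le ..) hmulsum)
    constructor
    · rw [← e.summable_iff]
      simp only [Function.comp_def, hfe]
      exact Summable.of_nonneg_of_le (fun _ => norm_nonneg _) (fun _ => norm_mul_le ..) hmulsum
    · rw [Finset.prod_insert hp, ← e.hasSum_iff]
      simp only [Function.comp_def, hfe]
      have h1 : HasSum (fun n : ℕ => f p ^ n) (1 - f p)⁻¹ :=
        hasSum_geometric_of_norm_lt_one (hlt p hpp)
      have : T0Space F := MetricSpace.instT0Space
      have : T3Space F := instT3Space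
      exact HasSum.mul (f := fun n : ℕ => f p ^ n)
        (g := fun a : factoredSet (s : Set α) => f a) h1 ih'.2 hmulsum'

/-- Every nonzero element has a finite set of primes containing all its prime divisors. -/
lemma exists_finset_primes_of_ne_zero {a : α} (ha : a ≠ 0) :
    ∃ S : Finset α, (∀ q ∈ S, Prime q) ∧ ∀ q, Prime q → q ∣ a → q ∈ S := by
  classical
  obtain ⟨m, hm, hma⟩ := UniqueFactorizationMonoid.exists_prime_factors a ha
  refine ⟨m.toFinset, fun q hq => hm q (Multiset.mem_toFinset.mp hq), fun q hq hqa => ?_⟩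
  have hqm : q ∣ m.prod := hma.dvd_iff_dvd_right.mpr hqa
  obtain ⟨b, hb, hqb⟩ := Prime.exists_mem_multiset_dvd hq hqm
  rw [Multiset.mem_toFinset, prime_eq_of_dvd (hm b hb) hq hqb]
  exact hb

/-- For a finite set `t`, some finite set of primes `S` has `t \ {0} ⊆ factoredSet S`. -/
lemma exists_finset_primes_of_finset (t : Finset α) :
    ∃ S : Finset α, (∀ q ∈ S, Prime q) ∧ ∀ a ∈ t, a ≠ 0 → ∀ q, Prime q → q ∣ a → q ∈ S := by
  classical
  induction t using Finset.induction with
  | empty => exact ⟨∅, by simp, by simp⟩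
  | insert b t _ ih =>
    obtain ⟨S, hS, hSt⟩ := ih
    by_cases hb : b = 0
    · refine ⟨S, hS, fun a ha ha0 => ?_⟩
      rcases Finset.mem_insert.mp ha with rfl | ha
      · exact absurd hb ha0
      · exact hSt a ha ha0
    · obtain ⟨S', hS', hSb⟩ := exists_finset_primes_of_ne_zero hb
      refine ⟨S ∪ S', fun q hq => ?_, fun a ha ha0 q hq hqa => ?_⟩
      · rcases Finset.mem_union.mp hq with h | h
        exacts [hS q h, hS' q h]
      · rcases Finset.mem_insert.mp ha with rfl | ha
        · exact Finset.mem_union_right _ (hSb q hq hqa)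
        · exact Finset.mem_union_left _ (hSt a ha ha0 q hq hqa)

/-- **Euler product** for a completely multiplicative function on a unique factorization
monoid with trivial units, the primes being parametrised by `ι : P → α`. -/
theorem eulerProduct_hasProd_ufm (f : α →*₀ F) (hsum : Summable (fun a => ‖f a‖))
    {P : Type*} (ι : P → α) (hι : Function.Injective ι) (hP : ∀ q, Prime q ↔ q ∈ Set.range ι) :
    HasProd (fun v : P => (1 - f (ι v))⁻¹) (∑' a, f a) := by
  classical
  have hlt : ∀ q, Prime q → ‖f q‖ < 1 := fun q hq => norm_lt_one_of_summable f hsum hq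
  have hsum' : Summable (fun a => f a) := hsum.of_norm
  rw [HasProd, SummationFilter.unconditional, Metric.tendsto_atTop]
  intro ε hε
  obtain ⟨t, ht⟩ := hsum'.tsum_vanishing (Metric.ball_mem_nhds 0 hε)
  obtain ⟨S, hS, hSt⟩ := exists_finset_primes_of_finset t
  refine ⟨S.preimage ι hι.injOn, fun s hs => ?_⟩
  have hprime : ∀ q ∈ s.image ι, Prime q := by
    intro q hq
    obtain ⟨v, -, rfl⟩ := Finset.mem_image.mp hq
    exact (hP _).mpr ⟨v, rfl⟩
  have hprod : ∏ v ∈ s, (1 - f (ι v))⁻¹ = ∑' a : factoredSet ((s.image ι : Finset α) : Set α), f a := by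
    rw [(summable_and_hasSum_factoredSet f hlt (s.image ι) hprime).2.tsum_eq,
      Finset.prod_image (fun x _ y _ h => hι h)]
  have hdisj : Disjoint ((factoredSet ((s.image ι : Finset α) : Set α))ᶜ \ {0}) (t : Set α) := by
    rw [Set.disjoint_left]
    rintro a ⟨ha, ha0⟩ hat
    apply ha
    have ha0' : a ≠ 0 := by simpa using ha0
    refine ⟨ha0', fun q hq hqa => ?_⟩
    obtain ⟨v, rfl⟩ := (hP q).mp hq
    have : ι v ∈ S := hSt a hat ha0' _ hq hqa
    have hv : v ∈ s := hs (Finset.mem_preimage.mpr this)
    exact Finset.mem_coe.mpr (Finset.mem_image_of_mem ι hv)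
  have := ht _ hdisj
  rw [mem_ball_zero_iff] at this
  rw [hprod, dist_eq_norm, norm_sub_rev,
    ← hsum'.tsum_subtype_add_tsum_subtype_compl (factoredSet ((s.image ι : Finset α) : Set α)),
    add_sub_cancel_left, tsum_eq_tsum_sdiff_singleton _ (map_zero f)]
  exact this

end Abstract

section Ideal

open IsDedekindDomain

variable {R : Type*} [CommRing R] [IsDedekindDomain R]
variable {F : Type*} [NormedField F] [CompleteSpace F]

/-- **Euler product over the prime ideals of a Dedekind domain** for a completely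
multiplicative function on ideals (with value `0` at `⊥`). -/
theorem eulerProduct_hasProd_ideal (f : Ideal R →*₀ F) (hsum : Summable (fun I => ‖f I‖)) :
    HasProd (fun v : HeightOneSpectrum R => (1 - f v.asIdeal)⁻¹) (∑' I : Ideal R, f I) := by
  refine eulerProduct_hasProd_ufm f hsum (fun v : HeightOneSpectrum R => v.asIdeal)
    (fun v w h => HeightOneSpectrum.ext h) (fun q => ?_)
  constructor
  · intro hq
    have hq0 : q ≠ ⊥ := hq.ne_zero
    exact ⟨⟨q, (Ideal.prime_iff_isPrime hq0).mp hq, hq0⟩, rfl⟩
  · rintro ⟨v, rfl⟩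
    exact (Ideal.prime_iff_isPrime v.ne_bot).mpr v.isPrime

end Ideal

end Fermat.Agent.H62
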